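import Mathlib

/-!
# MOONSHOT S52, block K3 (semistable integral model), part 1: scaling and perturbation

For a Weierstrass curve `W` over a commutative ring:

* `scale W Λ` : the curve `⟨Λ a₁, Λ² a₂, Λ³ a₃, Λ⁴ a₄, Λ⁶ a₆⟩` (invariants `Λ⁴ c₄, Λ⁶ c₆, Λ¹² Δ`);
* `perturb W η θ` : the curve `⟨a₁, a₂, a₃, a₄ + η, a₆ + θ⟩` (invariants `c₄ - 48 η`,
  `c₆ + 72 b₂ η - 864 θ`), and the reduction of `Δ` modulo an ideal containing `η, θ` is unchanged.
-/

set_option autoImplicit false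

namespace Fermat.Agent.SW.K3.Perturb

open WeierstrassCurve

variable {R : Type*} [CommRing R] (W : WeierstrassCurve R)

/-- the curve `⟨Λ a₁, Λ² a₂, Λ³ a₃, Λ⁴ a₄, Λ⁶ a₆⟩` -/
def scale (Λ : R) : WeierstrassCurve R :=
  ⟨Λ * W.a₁, Λ ^ 2 * W.a₂, Λ ^ 3 * W.a₃, Λ ^ 4 * W.a₄, Λ ^ 6 * W.a₆⟩

theorem scale_b₂ (Λ : R) : (scale W Λ).b₂ = Λ ^ 2 * W.b₂ := by
  simp only [scale, b₂]; ring

theorem scale_b₄ (Λ : R) : (scale W Λ).b₄ = Λ ^ 4 * W.b₄ := by
  simp only [scale, b₄]; ring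

theorem scale_b₆ (Λ : R) : (scale W Λ).b₆ = Λ ^ 6 * W.b₆ := by
  simp only [scale, b₆]; ring

theorem scale_b₈ (Λ : R) : (scale W Λ).b₈ = Λ ^ 8 * W.b₈ := by
  simp only [scale, b₈]; ring

theorem scale_c₄ (Λ : R) : (scale W Λ).c₄ = Λ ^ 4 * W.c₄ := by
  simp only [c₄, scale_b₂, scale_b₄]; ring

theorem scale_c₆ (Λ : R) : (scale W Λ).c₆ = Λ ^ 6 * W.c₆ := by
  simp only [c₆, scale_b₂, scale_b₄, scale_b₆]; ring

theorem scale_Δ (Λ : R) : (scale W Λ).Δ = Λ ^ 12 * W.Δ := by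
  simp only [WeierstrassCurve.Δ, scale_b₂, scale_b₄, scale_b₆, scale_b₈]; ring

/-- the curve `⟨a₁, a₂, a₃, a₄ + η, a₆ + θ⟩` -/
def perturb (η θ : R) : WeierstrassCurve R :=
  ⟨W.a₁, W.a₂, W.a₃, W.a₄ + η, W.a₆ + θ⟩

theorem perturb_b₂ (η θ : R) : (perturb W η θ).b₂ = W.b₂ := by
  simp only [perturb, b₂]

theorem perturb_b₄ (η θ : R) : (perturb W η θ).b₄ = W.b₄ + 2 * η := by
  simp only [perturb, b₄]; ring

theorem perturb_b₆ (η θ : R) : (perturb W η θ).b₆ = W.b₆ + 4 * θ := by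
  simp only [perturb, b₆]; ring

theorem perturb_c₄ (η θ : R) : (perturb W η θ).c₄ = W.c₄ - 48 * η := by
  simp only [c₄, perturb_b₂, perturb_b₄]; ring

theorem perturb_c₆ (η θ : R) :
    (perturb W η θ).c₆ = W.c₆ + 72 * W.b₂ * η - 864 * θ := by
  simp only [c₆, perturb_b₂, perturb_b₄, perturb_b₆]; ring

/-- a perturbation by elements of the kernel of `f` does not change the image of the curve -/
theorem perturb_map {S : Type*} [CommRing S] (f : R →+* S) {η θ : R} (hη : f η = 0)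
    (hθ : f θ = 0) : (perturb W η θ).map f = W.map f := by
  ext <;> simp [perturb, hη, hθ]

/-- a perturbation by elements of the kernel of `f` does not change the image of `Δ` -/
theorem map_perturb_Δ {S : Type*} [CommRing S] (f : R →+* S) {η θ : R} (hη : f η = 0)
    (hθ : f θ = 0) : f (perturb W η θ).Δ = f W.Δ := by
  rw [← map_Δ, ← map_Δ, perturb_map W f hη hθ]

end Fermat.Agent.SW.K3.Perturb
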