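import Mathlib
import Fermat.Agent.SW.K3.Perturb

/-!
# MOONSHOT S52, block K3 (semistable integral model), part 2: the integral model

Given a semistable integral Weierstrass curve `W` (`Δ ≠ 0`) and rational numbers `C₄, C₆`
which are close to `c₄(W), c₆(W)` at all primes dividing `modulus W = 48 * 864 * 30^6 * |Δ(W)|`,
we build an integral Weierstrass curve `W''` whose invariants are `(lam^4 C₄, lam^6 C₆)`, which is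
semistable at every prime dividing the modulus, and whose pair `(c₄, c₆)` is minimal at every prime.
-/

set_option autoImplicit false

namespace Fermat.Agent.SW.K3.Model

open WeierstrassCurve Fermat.Agent.SW.K3.Perturb

/-- no prime `q` has `q^4 ∣ c₄` and `q^6 ∣ c₆` -/
def MinimalPair (c₄ c₆ : ℤ) : Prop :=
  ∀ q : ℕ, q.Prime → ¬ (((q : ℤ) ^ 4 ∣ c₄) ∧ ((q : ℤ) ^ 6 ∣ c₆))

theorem exists_minimalPair_aux (n : ℕ) : ∀ (I₄ I₆ : ℤ), I₄ ^ 3 ≠ I₆ ^ 2 →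
    (I₄ ^ 3 - I₆ ^ 2).natAbs = n →
    ∃ (d : ℕ) (c₄ c₆ : ℤ), 0 < d ∧ I₄ = (d : ℤ) ^ 4 * c₄ ∧ I₆ = (d : ℤ) ^ 6 * c₆ ∧
      MinimalPair c₄ c₆ := by
  induction n using Nat.strong_induction_on with
  | _ n ih =>
    intro I₄ I₆ hne hn
    by_cases hmin : MinimalPair I₄ I₆
    · exact ⟨1, I₄, I₆, one_pos, by simp, by simp, hmin⟩
    · unfold MinimalPair at hmin
      push Not at hmin
      obtain ⟨q, hq, ⟨a, ha⟩, ⟨b, hb⟩⟩ := hmin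
      have hab : a ^ 3 ≠ b ^ 2 := by
        intro h
        apply hne
        rw [ha, hb]
        calc ((q : ℤ) ^ 4 * a) ^ 3 = (q : ℤ) ^ 12 * a ^ 3 := by ring
          _ = (q : ℤ) ^ 12 * b ^ 2 := by rw [h]
          _ = ((q : ℤ) ^ 6 * b) ^ 2 := by ring
      have hlt : (a ^ 3 - b ^ 2).natAbs < n := by
        have h1 : I₄ ^ 3 - I₆ ^ 2 = (q : ℤ) ^ 12 * (a ^ 3 - b ^ 2) := by rw [ha, hb]; ring
        rw [← hn, h1, Int.natAbs_mul, Int.natAbs_pow, Int.natAbs_natCast]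
        have h2 : 0 < (a ^ 3 - b ^ 2).natAbs := Int.natAbs_pos.mpr (sub_ne_zero.mpr hab)
        have h3 : 1 < q ^ 12 := Nat.one_lt_pow (by norm_num) hq.one_lt
        nlinarith
      obtain ⟨d, c₄, c₆, hd, h4, h6, hm⟩ := ih _ hlt a b hab rfl
      refine ⟨q * d, c₄, c₆, Nat.mul_pos hq.pos hd, ?_, ?_, hm⟩
      · rw [ha, h4]; push_cast; ring
      · rw [hb, h6]; push_cast; ring

/-- every pair `(I₄, I₆)` with `I₄^3 ≠ I₆^2` is `(d^4 c₄, d^6 c₆)` with `(c₄, c₆)` minimal -/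
theorem exists_minimalPair (I₄ I₆ : ℤ) (h : I₄ ^ 3 ≠ I₆ ^ 2) :
    ∃ (d : ℕ) (c₄ c₆ : ℤ), 0 < d ∧ I₄ = (d : ℤ) ^ 4 * c₄ ∧ I₆ = (d : ℤ) ^ 6 * c₆ ∧
      MinimalPair c₄ c₆ :=
  exists_minimalPair_aux _ I₄ I₆ h rfl

/-- the modulus `48 * 864 * (30^6 * |Δ(W)|)` -/
def modulus (W : WeierstrassCurve ℤ) : ℕ := 48 * 864 * (30 ^ 6 * W.Δ.natAbs)

theorem prime_dvd_thirty_of_dvd {q : ℕ} (hq : q.Prime) (h : q ∣ 48 * 864 * 30 ^ 6) : q ∣ 30 := by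
  have h1 : 48 * 864 * 30 ^ 6 ∣ 30 ^ 15 := by norm_num
  exact hq.dvd_of_dvd_pow (h.trans h1)

theorem prime_dvd_modulus {W : WeierstrassCurve ℤ} {q : ℕ} (hq : q.Prime) (h : q ∣ modulus W) :
    q ∣ 30 ∨ (q : ℤ) ∣ W.Δ := by
  unfold modulus at h
  have h1 : 48 * 864 * (30 ^ 6 * W.Δ.natAbs) = (48 * 864 * 30 ^ 6) * W.Δ.natAbs := by ring
  rw [h1] at h
  rcases (Nat.Prime.dvd_mul hq).mp h with h2 | h2
  · exact Or.inl (prime_dvd_thirty_of_dvd hq h2)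
  · exact Or.inr (Int.natCast_dvd.mpr h2)

theorem thirty_pow_dvd_modulus (W : WeierstrassCurve ℤ) : 30 ^ 6 ∣ modulus W :=
  ⟨48 * 864 * W.Δ.natAbs, by unfold modulus; ring⟩


theorem not_dvd_of_isCoprime_modulus {W : WeierstrassCurve ℤ} {q : ℕ} (hq : q.Prime)
    (hqM : q ∣ modulus W) {D : ℤ} (hD : IsCoprime D (modulus W : ℤ)) : ¬ (q : ℤ) ∣ D := by
  intro h
  obtain ⟨u, v, huv⟩ := hD
  have h1 : (q : ℤ) ∣ 1 := by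
    rw [← huv]
    exact dvd_add (Dvd.dvd.mul_left h u) (Dvd.dvd.mul_left (Int.natCast_dvd_natCast.mpr hqM) v)
  have h2 : (q : ℤ) = 1 := Int.eq_one_of_dvd_one (by positivity) h1
  have h3 : q = 1 := by exact_mod_cast h2
  exact hq.one_lt.ne' h3

/-- a prime dividing the modulus cannot divide the `d` of the minimal pair -/
theorem minimal_d_coprime (W : WeierstrassCurve ℤ)
    (hss : ∀ p : ℕ, p.Prime → (p : ℤ) ∣ W.Δ → ¬ (p : ℤ) ∣ W.c₄)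
    (D I₄ I₆ : ℤ) (hD : IsCoprime D (modulus W : ℤ))
    (h4 : (modulus W : ℤ) ∣ I₄ - D ^ 4 * W.c₄) (h6 : (modulus W : ℤ) ∣ I₆ - D ^ 6 * W.c₆)
    {q : ℕ} (hq : q.Prime) (hqM : q ∣ modulus W) :
    ¬ (((q : ℤ) ^ 4 ∣ I₄) ∧ ((q : ℤ) ^ 6 ∣ I₆)) := by
  rintro ⟨hq4, hq6⟩
  have hqZ : Prime (q : ℤ) := Nat.prime_iff_prime_int.mp hq
  have hqD : ¬ (q : ℤ) ∣ D := not_dvd_of_isCoprime_modulus hq hqM hD
  have hqMZ : (q : ℤ) ∣ (modulus W : ℤ) := Int.natCast_dvd_natCast.mpr hqM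
  by_cases hΔ : (q : ℤ) ∣ W.Δ
  · -- multiplicative prime of `W`
    have hc4 := hss q hq hΔ
    have h1 : (q : ℤ) ∣ I₄ := (dvd_pow_self (q : ℤ) (by norm_num)).trans hq4
    have h2 : (q : ℤ) ∣ D ^ 4 * W.c₄ := by
      have := dvd_sub h1 (hqMZ.trans h4)
      simpa using this
    rcases hqZ.dvd_or_dvd h2 with h3 | h3
    · exact hqD (hqZ.dvd_of_dvd_pow h3)
    · exact hc4 h3
  · -- `q ∈ {2, 3, 5}` a good prime of `W`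
    have hq30 : q ∣ 30 := by
      rcases prime_dvd_modulus hq hqM with h | h
      · exact h
      · exact absurd h hΔ
    have hq6M : (q : ℤ) ^ 6 ∣ (modulus W : ℤ) := by
      have h1 : q ^ 6 ∣ modulus W := (pow_dvd_pow_of_dvd hq30 6).trans (thirty_pow_dvd_modulus W)
      exact_mod_cast Int.natCast_dvd_natCast.mpr h1
    have hq4M : (q : ℤ) ^ 4 ∣ (modulus W : ℤ) := (pow_dvd_pow (q : ℤ) (by norm_num)).trans hq6M
    have hcop : IsCoprime (q : ℤ) D := (Prime.coprime_iff_not_dvd hqZ).mpr hqD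
    have h1 : (q : ℤ) ^ 4 ∣ W.c₄ := by
      have h2 : (q : ℤ) ^ 4 ∣ D ^ 4 * W.c₄ := by
        have := dvd_sub hq4 (hq4M.trans h4)
        simpa using this
      exact (IsCoprime.pow (m := 4) (n := 4) hcop).dvd_of_dvd_mul_left h2
    have h2 : (q : ℤ) ^ 6 ∣ W.c₆ := by
      have h2 : (q : ℤ) ^ 6 ∣ D ^ 6 * W.c₆ := by
        have := dvd_sub hq6 (hq6M.trans h6)
        simpa using this
      exact (IsCoprime.pow (m := 6) (n := 6) hcop).dvd_of_dvd_mul_left h2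
    have h3 : (q : ℤ) ^ 12 ∣ 1728 * W.Δ := by
      rw [W.c_relation]
      obtain ⟨a, ha⟩ := h1
      obtain ⟨b, hb⟩ := h2
      exact ⟨a ^ 3 - b ^ 2, by rw [ha, hb]; ring⟩
    have h4 : (q : ℤ) ^ 12 ∣ 1728 := hqZ.pow_dvd_of_dvd_mul_right 12 hΔ h3
    have h5 : (q : ℤ) ^ 12 ≤ 1728 := Int.le_of_dvd (by norm_num) h4
    have h6 : (2 : ℤ) ^ 12 ≤ (q : ℤ) ^ 12 :=
      pow_le_pow_left₀ (by norm_num) (by exact_mod_cast hq.two_le) 12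
    norm_num at h6
    omega


theorem modulus_eq (W : WeierstrassCurve ℤ) :
    (modulus W : ℤ) = 48 * 864 * (30 ^ 6 * |W.Δ|) := by
  unfold modulus
  push_cast
  rw [Int.abs_eq_natAbs]

theorem prime_dvd_M₁ {W : WeierstrassCurve ℤ} {q : ℕ} (hq : q.Prime) (h : q ∣ modulus W) :
    (q : ℤ) ∣ 30 ^ 6 * |W.Δ| := by
  rcases prime_dvd_modulus hq h with h1 | h1
  · have h2 : (q : ℤ) ∣ 30 := by exact_mod_cast Int.natCast_dvd_natCast.mpr h1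
    exact Dvd.dvd.mul_right (h2.trans (dvd_pow_self (30 : ℤ) (by norm_num))) _
  · exact Dvd.dvd.mul_left ((dvd_abs _ _).mpr h1) _

/-- the integral form of the model theorem, with the shape of the model: `W''` is a perturbation,
by multiples of `30^6 |Δ(W)|`, of the scaling of `W` by an integer `Λ` prime to the modulus -/
theorem exists_model_int_strong (W : WeierstrassCurve ℤ)
    (hss : ∀ p : ℕ, p.Prime → (p : ℤ) ∣ W.Δ → ¬ (p : ℤ) ∣ W.c₄)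
    (D I₄ I₆ : ℤ) (hD : IsCoprime D (modulus W : ℤ))
    (h4 : (modulus W : ℤ) ∣ I₄ - D ^ 4 * W.c₄) (h6 : (modulus W : ℤ) ∣ I₆ - D ^ 6 * W.c₆)
    (hne : I₄ ^ 3 ≠ I₆ ^ 2) :
    ∃ (W'' : WeierstrassCurve ℤ) (d : ℕ), 0 < d ∧ I₄ = (d : ℤ) ^ 4 * W''.c₄ ∧
      I₆ = (d : ℤ) ^ 6 * W''.c₆ ∧ W''.Δ ≠ 0 ∧
      (∀ q : ℕ, q.Prime → q ∣ modulus W → (q : ℤ) ∣ W''.Δ → ¬ (q : ℤ) ∣ W''.c₄) ∧
      MinimalPair W''.c₄ W''.c₆ ∧
      ∃ Λ η θ : ℤ, IsCoprime Λ (modulus W : ℤ) ∧ (30 ^ 6 * |W.Δ|) ∣ η ∧ (30 ^ 6 * |W.Δ|) ∣ θ ∧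
        W'' = perturb (scale W Λ) η θ := by
  obtain ⟨d, c₄'', c₆'', hd, hI4, hI6, hmin⟩ := exists_minimalPair I₄ I₆ hne
  -- `d` is coprime to the modulus
  have hdM : IsCoprime (d : ℤ) (modulus W : ℤ) := by
    rw [Nat.isCoprime_iff_coprime]
    apply Nat.Coprime.symm
    apply Nat.coprime_of_dvd
    intro q hq hqM hqd
    apply minimal_d_coprime W hss D I₄ I₆ hD h4 h6 hq hqM
    have hqd' : (q : ℤ) ∣ (d : ℤ) := Int.natCast_dvd_natCast.mpr hqd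
    constructor
    · rw [hI4]; exact Dvd.dvd.mul_right (pow_dvd_pow_of_dvd hqd' 4) _
    · rw [hI6]; exact Dvd.dvd.mul_right (pow_dvd_pow_of_dvd hqd' 6) _
  obtain ⟨e, v, hev⟩ := hdM
  set M : ℤ := (modulus W : ℤ) with hM
  have hdM : IsCoprime (d : ℤ) M := ⟨e, v, hev⟩
  have heM : IsCoprime e M := ⟨d, v, by linear_combination hev⟩
  set Λ : ℤ := D * e with hΛ
  have hΛM : IsCoprime Λ M := hD.mul_left heM
  obtain ⟨m4, hm4⟩ := h4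
  obtain ⟨m6, hm6⟩ := h6
  -- `Λ^4 c₄ ≡ c₄''` and `Λ^6 c₆ ≡ c₆''` modulo `M`
  have hk4 : M ∣ Λ ^ 4 * W.c₄ - c₄'' := by
    apply (IsCoprime.pow_left (m := 4) hdM).symm.dvd_of_dvd_mul_left
    refine ⟨-v * ((e * d) ^ 3 + (e * d) ^ 2 + e * d + 1) * D ^ 4 * W.c₄ - m4, ?_⟩
    rw [hΛ]
    linear_combination (D ^ 4 * W.c₄ * ((e * d) ^ 3 + (e * d) ^ 2 + e * d + 1)) * hev + hI4 - hm4
  have hk6 : M ∣ Λ ^ 6 * W.c₆ - c₆'' := by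
    apply (IsCoprime.pow_left (m := 6) hdM).symm.dvd_of_dvd_mul_left
    refine ⟨-v * ((e * d) ^ 5 + (e * d) ^ 4 + (e * d) ^ 3 + (e * d) ^ 2 + e * d + 1) * D ^ 6 * W.c₆
      - m6, ?_⟩
    rw [hΛ]
    linear_combination (D ^ 6 * W.c₆ *
      ((e * d) ^ 5 + (e * d) ^ 4 + (e * d) ^ 3 + (e * d) ^ 2 + e * d + 1)) * hev + hI6 - hm6
  obtain ⟨k4, hk4⟩ := hk4
  obtain ⟨k6, hk6⟩ := hk6
  set M₁ : ℤ := 30 ^ 6 * |W.Δ| with hM₁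
  have hMM₁ : M = 48 * 864 * M₁ := modulus_eq W
  set η : ℤ := 864 * M₁ * k4 with hη
  set θ : ℤ := 72 * (scale W Λ).b₂ * M₁ * k4 + 48 * M₁ * k6 with hθ
  have hc4 : (perturb (scale W Λ) η θ).c₄ = c₄'' := by
    rw [perturb_c₄, scale_c₄, hη]
    linear_combination hk4 + k4 * hMM₁
  have hc6 : (perturb (scale W Λ) η θ).c₆ = c₆'' := by
    rw [perturb_c₆, scale_c₆, hη, hθ]
    linear_combination hk6 + k6 * hMM₁
  have hΔ'' : (perturb (scale W Λ) η θ).Δ ≠ 0 := by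
    intro h0
    have h1 := (perturb (scale W Λ) η θ).c_relation
    rw [h0, hc4, hc6, mul_zero] at h1
    apply hne
    rw [hI4, hI6]
    linear_combination ((d : ℤ) ^ 12) * (-h1)
  refine ⟨perturb (scale W Λ) η θ, d, hd, by rw [hc4, hI4], by rw [hc6, hI6], hΔ'', ?_, ?_,
    Λ, η, θ, hΛM, ?_, ?_, rfl⟩
  · -- semistability at the primes dividing the modulus
    intro q hq hqM hqΔ hqc4
    have hqZ : Prime (q : ℤ) := Nat.prime_iff_prime_int.mp hq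
    have hqM₁ : (q : ℤ) ∣ M₁ := prime_dvd_M₁ hq hqM
    have hqMZ : (q : ℤ) ∣ M := Int.natCast_dvd_natCast.mpr hqM
    have hqΛ : ¬ (q : ℤ) ∣ Λ := not_dvd_of_isCoprime_modulus hq hqM hΛM
    have hfη : (Int.castRingHom (ZMod q)) η = 0 := by
      rw [eq_intCast, ZMod.intCast_zmod_eq_zero_iff_dvd]
      exact Dvd.dvd.mul_right (Dvd.dvd.mul_left hqM₁ _) _
    have hfθ : (Int.castRingHom (ZMod q)) θ = 0 := by
      rw [eq_intCast, ZMod.intCast_zmod_eq_zero_iff_dvd]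
      exact dvd_add (Dvd.dvd.mul_right (Dvd.dvd.mul_left hqM₁ _) _)
        (Dvd.dvd.mul_right (Dvd.dvd.mul_left hqM₁ _) _)
    have h1 := map_perturb_Δ (scale W Λ) (Int.castRingHom (ZMod q)) hfη hfθ
    rw [eq_intCast, eq_intCast, (ZMod.intCast_zmod_eq_zero_iff_dvd _ q).mpr hqΔ, eq_comm,
      ZMod.intCast_zmod_eq_zero_iff_dvd, scale_Δ] at h1
    have hqΔW : (q : ℤ) ∣ W.Δ := by
      rcases hqZ.dvd_or_dvd h1 with h2 | h2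
      · exact absurd (hqZ.dvd_of_dvd_pow h2) hqΛ
      · exact h2
    apply hss q hq hqΔW
    rw [hc4] at hqc4
    have h2 : (q : ℤ) ∣ Λ ^ 4 * W.c₄ := by
      have h3 : Λ ^ 4 * W.c₄ = c₄'' + M * k4 := by linear_combination hk4
      rw [h3]
      exact dvd_add hqc4 (Dvd.dvd.mul_right hqMZ _)
    rcases hqZ.dvd_or_dvd h2 with h3 | h3
    · exact absurd (hqZ.dvd_of_dvd_pow h3) hqΛ
    · exact h3
  · rw [hc4, hc6]; exact hmin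
  · exact Dvd.dvd.mul_right (Dvd.dvd.mul_left (dvd_refl M₁) _) _
  · exact dvd_add (Dvd.dvd.mul_right (Dvd.dvd.mul_left (dvd_refl M₁) _) _)
      (Dvd.dvd.mul_right (Dvd.dvd.mul_left (dvd_refl M₁) _) _)

/-- the integral form of the model theorem -/
theorem exists_model_int (W : WeierstrassCurve ℤ)
    (hss : ∀ p : ℕ, p.Prime → (p : ℤ) ∣ W.Δ → ¬ (p : ℤ) ∣ W.c₄)
    (D I₄ I₆ : ℤ) (hD : IsCoprime D (modulus W : ℤ))
    (h4 : (modulus W : ℤ) ∣ I₄ - D ^ 4 * W.c₄) (h6 : (modulus W : ℤ) ∣ I₆ - D ^ 6 * W.c₆)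
    (hne : I₄ ^ 3 ≠ I₆ ^ 2) :
    ∃ (W'' : WeierstrassCurve ℤ) (d : ℕ), 0 < d ∧ I₄ = (d : ℤ) ^ 4 * W''.c₄ ∧
      I₆ = (d : ℤ) ^ 6 * W''.c₆ ∧ W''.Δ ≠ 0 ∧
      (∀ q : ℕ, q.Prime → q ∣ modulus W → (q : ℤ) ∣ W''.Δ → ¬ (q : ℤ) ∣ W''.c₄) ∧
      MinimalPair W''.c₄ W''.c₆ := by
  obtain ⟨W'', d, hd, h4', h6', hΔ, hss'', hmin, -⟩ :=
    exists_model_int_strong W hss D I₄ I₆ hD h4 h6 hne
  exact ⟨W'', d, hd, h4', h6', hΔ, hss'', hmin⟩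

/-- `C` is close to `c` modulo `M`: `C - c = M * x / y` with `y` coprime to `M` -/
def Close (M : ℕ) (C c : ℚ) : Prop :=
  ∃ (x : ℤ) (y : ℕ), 0 < y ∧ y.Coprime M ∧ (C - c) * y = M * x

/-- **The semistable integral model.**  If `C₄, C₆` are close to `c₄(W), c₆(W)` modulo
`modulus W`, there is an integral curve `W''` with invariants `(lam^4 C₄, lam^6 C₆)`, semistable at
every prime dividing the modulus, with `(c₄, c₆)` minimal at every prime. -/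
theorem exists_model_strong (W : WeierstrassCurve ℤ)
    (hss : ∀ p : ℕ, p.Prime → (p : ℤ) ∣ W.Δ → ¬ (p : ℤ) ∣ W.c₄)
    (C₄ C₆ : ℚ) (hC : C₄ ^ 3 ≠ C₆ ^ 2)
    (h4 : Close (modulus W) C₄ (W.c₄ : ℚ)) (h6 : Close (modulus W) C₆ (W.c₆ : ℚ)) :
    ∃ (W'' : WeierstrassCurve ℤ) (lam : ℚ), lam ≠ 0 ∧ (W''.c₄ : ℚ) = lam ^ 4 * C₄ ∧
      (W''.c₆ : ℚ) = lam ^ 6 * C₆ ∧ W''.Δ ≠ 0 ∧
      (∀ q : ℕ, q.Prime → q ∣ modulus W → (q : ℤ) ∣ W''.Δ → ¬ (q : ℤ) ∣ W''.c₄) ∧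
      MinimalPair W''.c₄ W''.c₆ ∧
      ∃ Λ η θ : ℤ, IsCoprime Λ (modulus W : ℤ) ∧ (30 ^ 6 * |W.Δ|) ∣ η ∧ (30 ^ 6 * |W.Δ|) ∣ θ ∧
        W'' = perturb (scale W Λ) η θ := by
  obtain ⟨x₄, y₄, hy₄, hy₄M, hx₄⟩ := h4
  obtain ⟨x₆, y₆, hy₆, hy₆M, hx₆⟩ := h6
  set M : ℕ := modulus W with hM
  set D : ℤ := (y₄ : ℤ) * (y₆ : ℤ) with hD
  have hDpos : 0 < D := by positivity
  have hDM : IsCoprime D (M : ℤ) := by
    have h1 : IsCoprime (y₄ : ℤ) (M : ℤ) := Nat.isCoprime_iff_coprime.mpr hy₄M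
    have h2 : IsCoprime (y₆ : ℤ) (M : ℤ) := Nat.isCoprime_iff_coprime.mpr hy₆M
    exact h1.mul_left h2
  set I₄ : ℤ := D ^ 4 * W.c₄ + M * (x₄ * (y₄ : ℤ) ^ 3 * (y₆ : ℤ) ^ 4) with hI₄
  set I₆ : ℤ := D ^ 6 * W.c₆ + M * (x₆ * (y₄ : ℤ) ^ 6 * (y₆ : ℤ) ^ 5) with hI₆
  have hI₄Q : (I₄ : ℚ) = (D : ℚ) ^ 4 * C₄ := by
    rw [hI₄, hD]; push_cast
    linear_combination (-((y₄ : ℚ) ^ 3 * (y₆ : ℚ) ^ 4)) * hx₄
  have hI₆Q : (I₆ : ℚ) = (D : ℚ) ^ 6 * C₆ := by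
    rw [hI₆, hD]; push_cast
    linear_combination (-((y₄ : ℚ) ^ 6 * (y₆ : ℚ) ^ 5)) * hx₆
  have hDQ : (D : ℚ) ≠ 0 := by exact_mod_cast hDpos.ne'
  have hne : I₄ ^ 3 ≠ I₆ ^ 2 := by
    intro h
    have h1 : ((I₄ : ℚ)) ^ 3 = ((I₆ : ℚ)) ^ 2 := by exact_mod_cast h
    rw [hI₄Q, hI₆Q] at h1
    apply hC
    have h2 : (D : ℚ) ^ 12 * (C₄ ^ 3 - C₆ ^ 2) = 0 := by linear_combination h1
    rcases mul_eq_zero.mp h2 with h3 | h3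
    · exact absurd (pow_eq_zero_iff (by norm_num) |>.mp h3) hDQ
    · exact sub_eq_zero.mp h3
  obtain ⟨W'', d, hd, h4, h6, hΔ, hss'', hmin, hshape⟩ := exists_model_int_strong W hss D I₄ I₆ hDM
    ⟨x₄ * (y₄ : ℤ) ^ 3 * (y₆ : ℤ) ^ 4, by rw [hI₄]; ring⟩
    ⟨x₆ * (y₄ : ℤ) ^ 6 * (y₆ : ℤ) ^ 5, by rw [hI₆]; ring⟩ hne
  have hdQ : (d : ℚ) ≠ 0 := by exact_mod_cast hd.ne'
  refine ⟨W'', (D : ℚ) / (d : ℚ), div_ne_zero hDQ hdQ, ?_, ?_, hΔ, hss'', hmin, hshape⟩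
  · have h1 : (I₄ : ℚ) = (d : ℚ) ^ 4 * (W''.c₄ : ℚ) := by exact_mod_cast h4
    rw [div_pow, div_mul_eq_mul_div, eq_div_iff (pow_ne_zero 4 hdQ), ← hI₄Q, h1]; ring
  · have h1 : (I₆ : ℚ) = (d : ℚ) ^ 6 * (W''.c₆ : ℚ) := by exact_mod_cast h6
    rw [div_pow, div_mul_eq_mul_div, eq_div_iff (pow_ne_zero 6 hdQ), ← hI₆Q, h1]; ring

/-- **The semistable integral model** (without the shape of the model). -/
theorem exists_model (W : WeierstrassCurve ℤ)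
    (hss : ∀ p : ℕ, p.Prime → (p : ℤ) ∣ W.Δ → ¬ (p : ℤ) ∣ W.c₄)
    (C₄ C₆ : ℚ) (hC : C₄ ^ 3 ≠ C₆ ^ 2)
    (h4 : Close (modulus W) C₄ (W.c₄ : ℚ)) (h6 : Close (modulus W) C₆ (W.c₆ : ℚ)) :
    ∃ (W'' : WeierstrassCurve ℤ) (lam : ℚ), lam ≠ 0 ∧ (W''.c₄ : ℚ) = lam ^ 4 * C₄ ∧
      (W''.c₆ : ℚ) = lam ^ 6 * C₆ ∧ W''.Δ ≠ 0 ∧
      (∀ q : ℕ, q.Prime → q ∣ modulus W → (q : ℤ) ∣ W''.Δ → ¬ (q : ℤ) ∣ W''.c₄) ∧
      MinimalPair W''.c₄ W''.c₆ := by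
  obtain ⟨W'', lam, hlam, h4', h6', hΔ, hss'', hmin, -⟩ := exists_model_strong W hss C₄ C₆ hC h4 h6
  exact ⟨W'', lam, hlam, h4', h6', hΔ, hss'', hmin⟩

end Fermat.Agent.SW.K3.Model
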