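import Mathlib
import Fermat.Prelude.Def_FLTPrelim_Modularity
import Fermat.Agent.LR.VarChangePoint
import Fermat.Agent.SW.K3.Model

/-!
# MOONSHOT S52, block K3: the model has the same `a_q` as `W` at the primes of the modulus

The model `W''` of `Model.exists_model_strong` is `perturb (scale W Λ) η θ` with `Λ` prime to the
modulus and `η, θ` divisible by `30^6 |Δ(W)|`.  Hence for every prime `q` dividing the modulus
(`2, 3, 5` and the bad primes of `W`) the reduction of `W''` modulo `q` is the scaling of the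
reduction of `W` by the unit `Λ`, and `W''.apOfModel q = W.apOfModel q`.
-/

set_option autoImplicit false

namespace Fermat.Agent.SW.K3.ApEq

open WeierstrassCurve Fermat.Agent.SW.K3.Perturb Fermat.Agent.SW.K3.Model

theorem scale_map {R S : Type*} [CommRing R] [CommRing S] (W : WeierstrassCurve R) (Λ : R)
    (f : R →+* S) : (scale W Λ).map f = scale (W.map f) (f Λ) := by
  ext <;> simp [scale]

/-- scaling by a nonzero element of a field is a change of variables -/
theorem scale_eq_smul {F : Type*} [Field F] (E : WeierstrassCurve F) {u : F} (hu : u ≠ 0) :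
    scale E u = (⟨(Units.mk0 u hu)⁻¹, 0, 0, 0⟩ : VariableChange F) • E := by
  ext
  · simp [scale, variableChange_a₁]
  · simp [scale, variableChange_a₂]
  · simp [scale, variableChange_a₃]
  · simp [scale, variableChange_a₄]
  · simp [scale, variableChange_a₆]

theorem card_scale {F : Type*} [Field F] (E : WeierstrassCurve F) {u : F} (hu : u ≠ 0) :
    Nat.card (scale E u).toAffine.Point = Nat.card E.toAffine.Point := by
  classical
  rw [scale_eq_smul E hu]
  exact Nat.card_congr (Fermat.Agent.LR.VarChangePoint.pointEquiv E _).toEquiv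

/-- **the model has the same `a_q` as `W` at every prime `q` dividing the modulus** -/
theorem apOfModel_eq (W : WeierstrassCurve ℤ) {Λ η θ : ℤ} (hΛ : IsCoprime Λ (modulus W : ℤ))
    (hη : (30 ^ 6 * |W.Δ|) ∣ η) (hθ : (30 ^ 6 * |W.Δ|) ∣ θ) {q : ℕ} (hq : q.Prime)
    (hqM : q ∣ modulus W) :
    (perturb (scale W Λ) η θ).apOfModel q = W.apOfModel q := by
  have : Fact q.Prime := ⟨hq⟩
  have hqM₁ : (q : ℤ) ∣ 30 ^ 6 * |W.Δ| := prime_dvd_M₁ hq hqM
  have hfη : (Int.castRingHom (ZMod q)) η = 0 := by
    rw [eq_intCast, ZMod.intCast_zmod_eq_zero_iff_dvd]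
    exact hqM₁.trans hη
  have hfθ : (Int.castRingHom (ZMod q)) θ = 0 := by
    rw [eq_intCast, ZMod.intCast_zmod_eq_zero_iff_dvd]
    exact hqM₁.trans hθ
  have hfΛ : (Int.castRingHom (ZMod q)) Λ ≠ 0 := by
    rw [eq_intCast, Ne, ZMod.intCast_zmod_eq_zero_iff_dvd]
    exact not_dvd_of_isCoprime_modulus hq hqM hΛ
  have hmap : (perturb (scale W Λ) η θ).map (Int.castRingHom (ZMod q)) =
      scale (W.map (Int.castRingHom (ZMod q))) ((Int.castRingHom (ZMod q)) Λ) := by
    rw [perturb_map _ _ hfη hfθ, scale_map]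
  unfold apOfModel reductionMod traceOfFrobenius card
  rw [hmap, card_scale _ hfΛ]

end Fermat.Agent.SW.K3.ApEq
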