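import Mathlib

/-!
# MOONSHOT S52, block K3, part 3: curves with proportional invariants are isomorphic

Over a field in which `2` and `3` are invertible, two Weierstrass curves `W₁, W₂` with
`c₄(W₂) = lam^4 c₄(W₁)` and `c₆(W₂) = lam^6 c₆(W₁)` (`lam ≠ 0`) differ by a `VariableChange`.
-/

set_option autoImplicit false

namespace Fermat.Agent.SW.K3.IsoOfInvariants

open WeierstrassCurve

variable {F : Type*} [Field F]

/-- a curve in short normal form is determined by `c₄, c₆` -/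
theorem shortNF_ext (h2 : (2 : F) ≠ 0) (h3 : (3 : F) ≠ 0) (W₁ W₂ : WeierstrassCurve F)
    [W₁.IsShortNF] [W₂.IsShortNF] (h4 : W₁.c₄ = W₂.c₄) (h6 : W₁.c₆ = W₂.c₆) : W₁ = W₂ := by
  rw [c₄_of_isShortNF, c₄_of_isShortNF] at h4
  rw [c₆_of_isShortNF, c₆_of_isShortNF] at h6
  have h48 : (48 : F) ≠ 0 := by
    have : (48 : F) = 2 ^ 4 * 3 := by norm_num
    rw [this]; exact mul_ne_zero (pow_ne_zero 4 h2) h3
  have h864 : (864 : F) ≠ 0 := by
    have : (864 : F) = 2 ^ 5 * 3 ^ 3 := by norm_num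
    rw [this]; exact mul_ne_zero (pow_ne_zero 5 h2) (pow_ne_zero 3 h3)
  ext
  · rw [a₁_of_isShortNF, a₁_of_isShortNF]
  · rw [a₂_of_isShortNF, a₂_of_isShortNF]
  · rw [a₃_of_isShortNF, a₃_of_isShortNF]
  · have : (48 : F) * (W₁.a₄ - W₂.a₄) = 0 := by linear_combination -h4
    rcases mul_eq_zero.mp this with h | h
    · exact absurd h h48
    · exact sub_eq_zero.mp h
  · have : (864 : F) * (W₁.a₆ - W₂.a₆) = 0 := by linear_combination -h6
    rcases mul_eq_zero.mp this with h | h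
    · exact absurd h h864
    · exact sub_eq_zero.mp h

/-- curves with proportional `(c₄, c₆)` differ by a change of variables -/
theorem exists_variableChange_of_invariants (h2 : (2 : F) ≠ 0) (h3 : (3 : F) ≠ 0)
    (W₁ W₂ : WeierstrassCurve F) (lam : F) (hlam : lam ≠ 0)
    (h4 : W₂.c₄ = lam ^ 4 * W₁.c₄) (h6 : W₂.c₆ = lam ^ 6 * W₁.c₆) :
    ∃ C : VariableChange F, C • W₁ = W₂ := by
  have : Invertible (2 : F) := invertibleOfNonzero h2
  have : Invertible (3 : F) := invertibleOfNonzero h3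
  set C₁ := W₁.toShortNF with hC₁
  set C₂ := W₂.toShortNF with hC₂
  have i1 : (C₁ • W₁).IsShortNF := W₁.toShortNF_spec
  have i2 : (C₂ • W₂).IsShortNF := W₂.toShortNF_spec
  set T : VariableChange F := ⟨(Units.mk0 lam hlam)⁻¹ * C₂.u * C₁.u⁻¹, 0, 0, 0⟩ with hT
  have hu₁ : (C₁.u : F) ≠ 0 := C₁.u.ne_zero
  have hu₂ : (C₂.u : F) ≠ 0 := C₂.u.ne_zero
  have hTu : ((T.u⁻¹ : Fˣ) : F) = lam * (C₂.u : F)⁻¹ * (C₁.u : F) := by
    simp [hT]
    ring
  have i3 : (T • (C₁ • W₁)).IsShortNF := by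
    constructor
    · rw [variableChange_a₁, a₁_of_isShortNF]; simp [hT]
    · rw [variableChange_a₂, a₂_of_isShortNF, a₁_of_isShortNF]; simp [hT]
    · rw [variableChange_a₃, a₃_of_isShortNF, a₁_of_isShortNF]; simp [hT]
  have hTS : T • (C₁ • W₁) = C₂ • W₂ := by
    apply shortNF_ext h2 h3
    · rw [variableChange_c₄, variableChange_c₄, variableChange_c₄, h4, hTu,
        Units.val_inv_eq_inv_val, Units.val_inv_eq_inv_val]
      field_simp
    · rw [variableChange_c₆, variableChange_c₆, variableChange_c₆, h6, hTu,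
        Units.val_inv_eq_inv_val, Units.val_inv_eq_inv_val]
      field_simp
  refine ⟨C₂⁻¹ * T * C₁, ?_⟩
  rw [mul_smul, mul_smul, hTS, inv_smul_smul]

end Fermat.Agent.SW.K3.IsoOfInvariants
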