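import Mathlib
import Fermat.Agent.SW.K3.Model
import Fermat.Agent.SW.K3.IsoOfInvariants
import Fermat.Agent.SW.K3.ApEq

/-!
# MOONSHOT S52, block K3, part 4: the semistable integral model of a short Weierstrass curve

`exists_model_iso`: for a semistable integral curve `W` and rationals `a, b` with
`4 a^3 + 27 b^2 ≠ 0`, `-a/27` close to `c₄(W)` and `-b/54` close to `c₆(W)` modulo `modulus W`,
there is an integral model `W''` of `y^2 = x^3 + a x + b` (a `VariableChange` over `ℚ`), with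
`Δ ≠ 0`, semistable at every prime dividing the modulus, and with `(c₄, c₆)` minimal at all primes.
-/

set_option autoImplicit false

namespace Fermat.Agent.SW.K3.ModelIso

open WeierstrassCurve Fermat.Agent.SW.K3.Model Fermat.Agent.SW.K3.IsoOfInvariants

/-- the short Weierstrass curve `y^2 = x^3 + a x + b` -/
def short (a b : ℚ) : WeierstrassCurve ℚ := ⟨0, 0, 0, a, b⟩

theorem short_c₄ (a b : ℚ) : (short a b).c₄ = -48 * a := by
  simp only [short, c₄, b₂, b₄]; ring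

theorem short_c₆ (a b : ℚ) : (short a b).c₆ = -864 * b := by
  simp only [short, c₆, b₂, b₄, b₆]; ring

theorem short_Δ (a b : ℚ) : (short a b).Δ = -16 * (4 * a ^ 3 + 27 * b ^ 2) := by
  simp only [short, WeierstrassCurve.Δ, b₂, b₄, b₆, b₈]; ring

/-- **K3 (3a): the semistable integral model**, with the equality of the `a_q` at the primes
dividing the modulus (in particular at `q = 2, 3, 5`). -/
theorem exists_model_iso_strong (W : WeierstrassCurve ℤ)
    (hss : ∀ p : ℕ, p.Prime → (p : ℤ) ∣ W.Δ → ¬ (p : ℤ) ∣ W.c₄)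
    (a b : ℚ) (hab : 4 * a ^ 3 + 27 * b ^ 2 ≠ 0)
    (h4 : Close (modulus W) (-a / 27) (W.c₄ : ℚ)) (h6 : Close (modulus W) (-b / 54) (W.c₆ : ℚ)) :
    ∃ W'' : WeierstrassCurve ℤ, W''.Δ ≠ 0 ∧
      (∀ q : ℕ, q.Prime → q ∣ modulus W → (q : ℤ) ∣ W''.Δ → ¬ (q : ℤ) ∣ W''.c₄) ∧
      MinimalPair W''.c₄ W''.c₆ ∧
      (∃ C : VariableChange ℚ, C • short a b = W''.map (Int.castRingHom ℚ)) ∧
      (∀ q : ℕ, q.Prime → q ∣ modulus W → W''.apOfModel q = W.apOfModel q) ∧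
      (∀ q : ℕ, q.Prime → q ∣ modulus W → ((q : ℤ) ∣ W''.Δ ↔ (q : ℤ) ∣ W.Δ)) := by
  have hC : (-a / 27) ^ 3 ≠ (-b / 54) ^ 2 := by
    intro h
    apply hab
    linear_combination (-78732 : ℚ) * h
  obtain ⟨W'', lam, hlam, h4'', h6'', hΔ'', hss'', hmin, Λ, η, θ, hΛ, hη, hθ, rfl⟩ :=
    exists_model_strong W hss (-a / 27) (-b / 54) hC h4 h6
  refine ⟨_, hΔ'', hss'', hmin, ?_, ?_, ?_⟩
  · apply exists_variableChange_of_invariants (by norm_num) (by norm_num) (short a b)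
      ((Fermat.Agent.SW.K3.Perturb.perturb (Fermat.Agent.SW.K3.Perturb.scale W Λ) η θ).map
        (Int.castRingHom ℚ)) (lam / 6) (div_ne_zero hlam (by norm_num))
    · rw [map_c₄, short_c₄, eq_intCast, h4'']; ring
    · rw [map_c₆, short_c₆, eq_intCast, h6'']; ring
  · intro q hq hqM
    exact Fermat.Agent.SW.K3.ApEq.apOfModel_eq W hΛ hη hθ hq hqM
  · intro q hq hqM
    have hqZ : Prime (q : ℤ) := Nat.prime_iff_prime_int.mp hq
    have hqM₁ : (q : ℤ) ∣ 30 ^ 6 * |W.Δ| := prime_dvd_M₁ hq hqM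
    have hfη : (Int.castRingHom (ZMod q)) η = 0 := by
      rw [eq_intCast, ZMod.intCast_zmod_eq_zero_iff_dvd]
      exact hqM₁.trans hη
    have hfθ : (Int.castRingHom (ZMod q)) θ = 0 := by
      rw [eq_intCast, ZMod.intCast_zmod_eq_zero_iff_dvd]
      exact hqM₁.trans hθ
    have h1 := Fermat.Agent.SW.K3.Perturb.map_perturb_Δ (Fermat.Agent.SW.K3.Perturb.scale W Λ)
      (Int.castRingHom (ZMod q)) hfη hfθ
    rw [eq_intCast, eq_intCast, Fermat.Agent.SW.K3.Perturb.scale_Δ] at h1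
    have hqΛ : ¬ (q : ℤ) ∣ Λ := not_dvd_of_isCoprime_modulus hq hqM hΛ
    rw [← ZMod.intCast_zmod_eq_zero_iff_dvd, h1, ZMod.intCast_zmod_eq_zero_iff_dvd]
    constructor
    · intro h
      rcases hqZ.dvd_or_dvd h with h2 | h2
      · exact absurd (hqZ.dvd_of_dvd_pow h2) hqΛ
      · exact h2
    · intro h
      exact Dvd.dvd.mul_left h _

/-- **K3 (3a): the semistable integral model.** -/
theorem exists_model_iso (W : WeierstrassCurve ℤ)
    (hss : ∀ p : ℕ, p.Prime → (p : ℤ) ∣ W.Δ → ¬ (p : ℤ) ∣ W.c₄)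
    (a b : ℚ) (hab : 4 * a ^ 3 + 27 * b ^ 2 ≠ 0)
    (h4 : Close (modulus W) (-a / 27) (W.c₄ : ℚ)) (h6 : Close (modulus W) (-b / 54) (W.c₆ : ℚ)) :
    ∃ W'' : WeierstrassCurve ℤ, W''.Δ ≠ 0 ∧
      (∀ q : ℕ, q.Prime → q ∣ modulus W → (q : ℤ) ∣ W''.Δ → ¬ (q : ℤ) ∣ W''.c₄) ∧
      MinimalPair W''.c₄ W''.c₆ ∧
      ∃ C : VariableChange ℚ, C • short a b = W''.map (Int.castRingHom ℚ) := by
  obtain ⟨W'', hΔ'', hss'', hmin, hC, -, -⟩ := exists_model_iso_strong W hss a b hab h4 h6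
  exact ⟨W'', hΔ'', hss'', hmin, hC⟩

end Fermat.Agent.SW.K3.ModelIso
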