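import Mathlib
import Fermat.Agent.LR.VarChangePoint

/-!
# MOONSHOT S52, block K3 (3b), part 2: the scaled short Weierstrass form

Over a field `K` with `2, 3 ≠ 0`: the explicit change of variables
`shortVC W u = ⟨u, -b₂/12, -a₁/2, -(a₃ - b₂ a₁/12)/2⟩` takes `W` to
`y² = x³ - c₄/(48 u⁴) x - c₆/(864 u⁶)`.

For a ring endomorphism `σ` of `K` with `σ u = ζ u` fixing `r, s, t`, the coordinates of the
preimage `(X, Y)` of a `σ`-fixed point `(x, y)` satisfy `σ X = ζ⁻² X`, `σ Y = ζ⁻³ Y`.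
-/

set_option autoImplicit false

namespace Fermat.Agent.SW.K3.Short

open WeierstrassCurve Fermat.Agent.LR.VarChangePoint

variable {K : Type*} [Field K] (W : WeierstrassCurve K)

/-- the change of variables to the short form, scaled by `u` -/
def shortVC (u : Kˣ) : VariableChange K :=
  ⟨u, -W.b₂ / 12, -W.a₁ / 2, -(W.a₃ + (-W.b₂ / 12) * W.a₁) / 2⟩

@[simp] theorem shortVC_u (u : Kˣ) : (shortVC W u).u = u := rfl

theorem shortVC_a₁ (h2 : (2 : K) ≠ 0) (u : Kˣ) : (shortVC W u • W).a₁ = 0 := by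
  rw [variableChange_a₁]
  simp only [shortVC]
  field_simp
  ring

theorem shortVC_a₂ (h2 : (2 : K) ≠ 0) (h3 : (3 : K) ≠ 0) (u : Kˣ) :
    (shortVC W u • W).a₂ = 0 := by
  have h12 : (12 : K) ≠ 0 := by
    have : (12 : K) = 2 ^ 2 * 3 := by norm_num
    rw [this]; exact mul_ne_zero (pow_ne_zero 2 h2) h3
  rw [variableChange_a₂]
  simp only [shortVC, b₂]
  field_simp
  ring

theorem shortVC_a₃ (h2 : (2 : K) ≠ 0) (u : Kˣ) : (shortVC W u • W).a₃ = 0 := by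
  rw [variableChange_a₃]
  simp only [shortVC]
  field_simp
  ring

theorem shortVC_c₄ (u : Kˣ) : (shortVC W u • W).c₄ = ((u⁻¹ : Kˣ) : K) ^ 4 * W.c₄ := by
  rw [variableChange_c₄]; rfl

theorem shortVC_c₆ (u : Kˣ) : (shortVC W u • W).c₆ = ((u⁻¹ : Kˣ) : K) ^ 6 * W.c₆ := by
  rw [variableChange_c₆]; rfl

theorem shortVC_Δ (u : Kˣ) : (shortVC W u • W).Δ = ((u⁻¹ : Kˣ) : K) ^ 12 * W.Δ := by
  rw [variableChange_Δ]; rfl

theorem shortVC_a₄ (h2 : (2 : K) ≠ 0) (h3 : (3 : K) ≠ 0) (u : Kˣ) :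
    48 * (shortVC W u • W).a₄ = -(((u⁻¹ : Kˣ) : K) ^ 4 * W.c₄) := by
  have e1 := shortVC_a₁ W h2 u
  have e2 := shortVC_a₂ W h2 h3 u
  have e := shortVC_c₄ W u
  simp only [c₄, b₂, b₄] at e
  rw [e1, e2] at e
  simp only [c₄, b₂, b₄]
  linear_combination -e

theorem shortVC_a₆ (h2 : (2 : K) ≠ 0) (h3 : (3 : K) ≠ 0) (u : Kˣ) :
    864 * (shortVC W u • W).a₆ = -(((u⁻¹ : Kˣ) : K) ^ 6 * W.c₆) := by
  have e1 := shortVC_a₁ W h2 u
  have e2 := shortVC_a₂ W h2 h3 u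
  have e3 := shortVC_a₃ W h2 u
  have e := shortVC_c₆ W u
  simp only [c₆, b₂, b₄, b₆] at e
  rw [e1, e2, e3] at e
  simp only [c₆, b₂, b₄, b₆]
  linear_combination -e

end Fermat.Agent.SW.K3.Short
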