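import Mathlib
import Fermat.Prelude.Def_FLTPrelim_GaloisRep
import Fermat.Prelude.Def_FLTPrelim_Ramification
import Fermat.Agent.S05.Defs
import Fermat.Agent.S05.Val
import Fermat.Agent.EC.Mult.Main
import Fermat.Agent.SW.K3.Short

/-!
# MOONSHOT S52, block K3 (3b), part 6: an integral Weierstrass curve over `ℚ̄`

`EQ W = (W.map (Int.castRingHom ℚ)).toAffine⁄ℚ̄` for `W : WeierstrassCurve ℤ`: coefficients and
invariants are integer casts, fixed by every automorphism; the coefficients `r, s, t` of `shortVC`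
are fixed by every automorphism; the Galois action on affine points is coordinatewise.
-/

set_option autoImplicit false

namespace Fermat.Agent.SW.K3.CurveQ

open WeierstrassCurve WeierstrassCurve.Affine Fermat.Agent.S05 Fermat.Agent.SW.K3.Short
open scoped WeierstrassCurve.Affine

local notation "Qbar" => AlgebraicClosure ℚ

/-- the base change to `ℚ̄` of an integral model -/
noncomputable abbrev EQ (W : WeierstrassCurve ℤ) : WeierstrassCurve Qbar :=
  (W.map (Int.castRingHom ℚ)).toAffine⁄Qbar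

variable (W : WeierstrassCurve ℤ)

theorem EQ_eq : EQ W = W.map (Int.castRingHom Qbar) :=
  Fermat.Agent.EC.Mult.Main.baseChange_eq W

theorem EQ_a₁ : (EQ W).a₁ = ((W.a₁ : ℤ) : Qbar) := by rw [EQ_eq]; rfl
theorem EQ_a₂ : (EQ W).a₂ = ((W.a₂ : ℤ) : Qbar) := by rw [EQ_eq]; rfl
theorem EQ_a₃ : (EQ W).a₃ = ((W.a₃ : ℤ) : Qbar) := by rw [EQ_eq]; rfl
theorem EQ_a₄ : (EQ W).a₄ = ((W.a₄ : ℤ) : Qbar) := by rw [EQ_eq]; rfl
theorem EQ_a₆ : (EQ W).a₆ = ((W.a₆ : ℤ) : Qbar) := by rw [EQ_eq]; rfl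

theorem EQ_c₄ : (EQ W).c₄ = ((W.c₄ : ℤ) : Qbar) := by
  rw [EQ_eq, WeierstrassCurve.map_c₄]; rfl

theorem EQ_c₆ : (EQ W).c₆ = ((W.c₆ : ℤ) : Qbar) := by
  rw [EQ_eq, WeierstrassCurve.map_c₆]; rfl

theorem EQ_Δ : (EQ W).Δ = ((W.Δ : ℤ) : Qbar) := by
  rw [EQ_eq, WeierstrassCurve.map_Δ]; rfl

/-- `r, s, t` of the short change of variables are fixed by every ring endomorphism -/
theorem shortVC_fixed (σ : Qbar →+* Qbar) (u : Qbarˣ) :
    σ (shortVC (EQ W) u).r = (shortVC (EQ W) u).r ∧ σ (shortVC (EQ W) u).s = (shortVC (EQ W) u).s ∧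
      σ (shortVC (EQ W) u).t = (shortVC (EQ W) u).t := by
  simp only [shortVC, b₂, EQ_a₁, EQ_a₂, EQ_a₃, map_div₀, map_neg, map_add, map_mul, map_pow,
    map_intCast, map_ofNat, and_self]

end Fermat.Agent.SW.K3.CurveQ
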