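import Mathlib
import Fermat.Agent.S05.Defs
import Fermat.Agent.S05.Sep
import Fermat.Agent.S05.Integral
import Fermat.Agent.S05.Kernel
import Fermat.Agent.LR.VarChangePoint

/-!
# MOONSHOT S52, block K3 (3b), part 3: the potentially good case, abstract form

`(K, v)` a valued field, `E` a Weierstrass curve over `K` in short form with `v`-integral
coefficients and unit discriminant.

* `integral_of_torsion` : a nonzero `n`-torsion point (`n` a `v`-unit) has integral coordinates;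
* `eq_of_congr` : reduction is injective on `n`-torsion;
* `false_of_twisted_fixed` : if `σ` is inertia-like (`v (σ x - x) < 1` on integers) and all the
  multiples `(X, Y)` of a nonzero `5`-torsion point satisfy `σ X = ξ₂ X`, `σ Y = ξ₃ Y` with
  `ξ₂ - 1` or `ξ₃ - 1` a unit, we get a contradiction;
* `twisted_of_fixed` : the twisted fixedness for the preimage under a change of variables
  `C = (u, r, s, t)`, `σ u = ζ u`, of a `σ`-fixed point.
-/

set_option autoImplicit false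

namespace Fermat.Agent.SW.K3.PotGood

open WeierstrassCurve WeierstrassCurve.Affine Fermat.Agent.S05 Fermat.Agent.LR.VarChangePoint

variable {K : Type*} [Field K] [DecidableEq K] {Γ₀ : Type*} [LinearOrderedCommGroupWithZero Γ₀]
variable {v : Valuation K Γ₀} {E : WeierstrassCurve K}

/-- a nonzero `n`-torsion point of an integral curve, `n` a unit, has integral coordinates -/
theorem integral_of_torsion (hE : IntegralCoeffs v E) {n : ℕ} (hn : v (n : K) = 1) {X Y : K}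
    (h : E.toAffine.Nonsingular X Y) (hT : n • (Point.some X Y h) = 0) : v X ≤ 1 ∧ v Y ≤ 1 := by
  have hX : v X ≤ 1 := by
    by_contra hX
    push Not at hX
    have h0 : Point.some X Y h = (0 : E.toAffine.Point) :=
      eq_zero_of_inKer_of_nsmul_eq_zero hE (Or.inr ⟨X, Y, h, rfl, hX⟩) hn hT
    exact Point.some_ne_zero h h0
  exact ⟨hX, y_integral hE h.1 hX⟩

/-- reduction is injective on `n`-torsion, `n` a unit, for a curve with unit discriminant -/
theorem eq_of_congr (hE : IntegralCoeffs v E) (hΔ : v E.Δ = 1) {n : ℕ} (hn : v (n : K) = 1)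
    {X Y X' Y' : K} (h : E.toAffine.Nonsingular X Y) (h' : E.toAffine.Nonsingular X' Y')
    (hT : n • (Point.some X Y h) = 0) (hT' : n • (Point.some X' Y' h') = 0)
    (hX : v (X' - X) < 1) (hY : v (Y' - Y) < 1) : Point.some X' Y' h' = Point.some X Y h := by
  obtain ⟨hx, hy⟩ := integral_of_torsion hE hn h hT
  have hker : InKer v E (Point.some X' Y' h' - Point.some X Y h) :=
    sub_inKer_of_congr hE h h' hx hy hX hY (partial_unit_of_disc_unit hE hΔ h.1 hx hy)
  have hn' : n • (Point.some X' Y' h' - Point.some X Y h) = 0 := by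
    rw [smul_sub, hT, hT', sub_zero]
  exact sub_eq_zero.mp (eq_zero_of_inKer_of_nsmul_eq_zero hE hker hn hn')

/-- **Potentially good case, abstract form.** -/
theorem false_of_twisted_fixed (hE : IntegralCoeffs v E) (hΔ : v E.Δ = 1) (h1 : E.a₁ = 0)
    (h2 : E.a₂ = 0) (h3 : E.a₃ = 0) (hv2 : v (2 : K) = 1) (hv5 : v ((5 : ℕ) : K) = 1)
    {σ : K →+* K} (hsub : ∀ x, v x ≤ 1 → v (σ x - x) < 1) {ξ₂ ξ₃ : K}
    (hξ : v (ξ₂ - 1) = 1 ∨ v (ξ₃ - 1) = 1)
    (T : E.toAffine.Point) (hT5 : 5 • T = 0) (hT0 : T ≠ 0)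
    (htw : ∀ (k : ℕ) (X Y : K) (h : E.toAffine.Nonsingular X Y), k • T = Point.some X Y h →
      σ X = ξ₂ * X ∧ σ Y = ξ₃ * Y) : False := by
  rcases T with _ | ⟨X₁, Y₁, h₁⟩
  · exact hT0 rfl
  obtain ⟨hX₁, hY₁⟩ := integral_of_torsion hE hv5 h₁ hT5
  obtain ⟨hσX₁, hσY₁⟩ := htw 1 X₁ Y₁ h₁ (one_smul _ _)
  -- the negative of `T`
  have hneg : -(Point.some X₁ Y₁ h₁) = Point.some X₁ (-Y₁) (by
      have := (nonsingular_neg (W' := E.toAffine) X₁ Y₁).mpr h₁
      simpa [negY, h1, h3] using this) := by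
    rw [Point.neg_some]
    congr 1
    simp [negY, h1, h3]
  have hneg5 : 5 • (Point.some X₁ (-Y₁) (by
      have := (nonsingular_neg (W' := E.toAffine) X₁ Y₁).mpr h₁
      simpa [negY, h1, h3] using this) : E.toAffine.Point) = 0 := by
    rw [← hneg, smul_neg, hT5, neg_zero]
  rcases hξ with hξ | hξ
  · -- `ξ₂ - 1` a unit: the `x`-coordinates of `T` and `2 T` are in the maximal ideal
    have h2T : (2 : ℕ) • (Point.some X₁ Y₁ h₁) ≠ 0 := by
      intro h0
      apply hT0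
      have : Point.some X₁ Y₁ h₁ = 5 • (Point.some X₁ Y₁ h₁) - 2 • (2 • (Point.some X₁ Y₁ h₁)) := by
        abel
      rw [this, hT5, h0, smul_zero, sub_zero]
    have h2T5 : 5 • ((2 : ℕ) • (Point.some X₁ Y₁ h₁)) = 0 := by
      rw [smul_comm, hT5, smul_zero]
    rcases h2Teq : (2 : ℕ) • (Point.some X₁ Y₁ h₁) with _ | ⟨X₂, Y₂, h₂⟩
    · exact h2T h2Teq
    rw [h2Teq] at h2T5
    obtain ⟨hX₂, hY₂⟩ := integral_of_torsion hE hv5 h₂ h2T5
    obtain ⟨hσX₂, hσY₂⟩ := htw 2 X₂ Y₂ h₂ h2Teq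
    have small : ∀ X : K, v X ≤ 1 → σ X = ξ₂ * X → v X < 1 := by
      intro X hX hσ
      have h4 := hsub X hX
      rw [hσ] at h4
      have h5 : ξ₂ * X - X = (ξ₂ - 1) * X := by ring
      rwa [h5, map_mul, hξ, one_mul] at h4
    have hx₁ := small X₁ hX₁ hσX₁
    have hx₂ := small X₂ hX₂ hσX₂
    have hdx : v (X₂ - X₁) < 1 :=
      lt_of_le_of_lt (Valuation.map_sub _ _ _) (max_lt hx₂ hx₁)
    -- `(Y₂ - Y₁) (Y₂ + Y₁)` is in the maximal ideal
    have e₁ := (equation_iff _ _).mp h₁.1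
    have e₂ := (equation_iff _ _).mp h₂.1
    rw [h1, h2, h3] at e₁ e₂
    have hprod : (Y₂ - Y₁) * (Y₂ + Y₁) = X₂ * (X₂ ^ 2 + E.a₄) - X₁ * (X₁ ^ 2 + E.a₄) := by
      linear_combination e₂ - e₁
    have hint : ∀ X : K, v X ≤ 1 → v (X ^ 2 + E.a₄) ≤ 1 := by
      intro X hX
      refine Valuation.map_add_le v ?_ hE.a₄
      rw [map_pow]
      exact pow_le_one₀ zero_le hX
    have hlt : v ((Y₂ - Y₁) * (Y₂ + Y₁)) < 1 := by
      rw [hprod]
      refine lt_of_le_of_lt (Valuation.map_sub _ _ _) (max_lt ?_ ?_)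
      · rw [map_mul]
        calc v X₂ * v (X₂ ^ 2 + E.a₄) ≤ v X₂ * 1 := mul_le_mul_right (hint X₂ hX₂) _
          _ < 1 := by rwa [mul_one]
      · rw [map_mul]
        calc v X₁ * v (X₁ ^ 2 + E.a₄) ≤ v X₁ * 1 := mul_le_mul_right (hint X₁ hX₁) _
          _ < 1 := by rwa [mul_one]
    have hcase : v (Y₂ - Y₁) < 1 ∨ v (Y₂ + Y₁) < 1 := by
      by_contra hcon
      push Not at hcon
      rw [map_mul] at hlt
      have : (1 : Γ₀) ≤ v (Y₂ - Y₁) * v (Y₂ + Y₁) := by
        calc (1 : Γ₀) = 1 * 1 := (one_mul 1).symm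
          _ ≤ v (Y₂ - Y₁) * v (Y₂ + Y₁) := mul_le_mul' hcon.1 hcon.2
      exact not_lt.mpr this hlt
    rcases hcase with hy | hy
    · -- `2 T = T`
      have heq := eq_of_congr hE hΔ hv5 h₁ h₂ hT5 h2T5 hdx hy
      rw [← h2Teq] at heq
      apply hT0
      have : Point.some X₁ Y₁ h₁ = 2 • (Point.some X₁ Y₁ h₁) - Point.some X₁ Y₁ h₁ := by abel
      rw [this, heq, sub_self]
    · -- `2 T = -T`
      have hy' : v (Y₂ - -Y₁) < 1 := by rwa [sub_neg_eq_add]
      have heq := eq_of_congr hE hΔ hv5 _ h₂ hneg5 h2T5 hdx hy'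
      rw [← h2Teq, ← hneg] at heq
      apply hT0
      have : Point.some X₁ Y₁ h₁ = 2 • (2 • (Point.some X₁ Y₁ h₁) + Point.some X₁ Y₁ h₁) -
          5 • (Point.some X₁ Y₁ h₁) := by abel
      rw [this, heq, hT5, neg_add_cancel, smul_zero, sub_zero]
  · -- `ξ₃ - 1` a unit: the `y`-coordinate of `T` is in the maximal ideal
    have hy₁ : v Y₁ < 1 := by
      have h4 := hsub Y₁ hY₁
      rw [hσY₁] at h4
      have h5 : ξ₃ * Y₁ - Y₁ = (ξ₃ - 1) * Y₁ := by ring
      rwa [h5, map_mul, hξ, one_mul] at h4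
    have hdx : v (X₁ - X₁) < 1 := by rw [sub_self, map_zero]; exact zero_lt_one
    have hdy : v (-Y₁ - Y₁) < 1 := by
      have : -Y₁ - Y₁ = -(2 * Y₁) := by ring
      rwa [this, Valuation.map_neg, map_mul, hv2, one_mul]
    have heq := eq_of_congr hE hΔ hv5 h₁ _ hT5 hneg5 hdx hdy
    rw [← hneg] at heq
    apply hT0
    have : Point.some X₁ Y₁ h₁ = 5 • (Point.some X₁ Y₁ h₁) -
        2 • (Point.some X₁ Y₁ h₁ - -(Point.some X₁ Y₁ h₁)) := by abel
    rw [this, heq, hT5, sub_self, smul_zero, sub_zero]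


omit [DecidableEq K] in
/-- twisted fixedness of the coordinates of the preimage of a `σ`-fixed point -/
theorem twisted_of_fixed {C : VariableChange K} {σ : K →+* K} {ζ : K} (hζ0 : ζ ≠ 0)
    (hσu : σ C.u = ζ * C.u) (hσr : σ C.r = C.r) (hσs : σ C.s = C.s) (hσt : σ C.t = C.t)
    {X Y : K} (hx : σ (vcX C X) = vcX C X) (hy : σ (vcY C X Y) = vcY C X Y) :
    σ X = ζ⁻¹ ^ 2 * X ∧ σ Y = ζ⁻¹ ^ 3 * Y := by
  have hu0 : (C.u : K) ≠ 0 := C.u.ne_zero
  simp only [vcX, vcY, map_add, map_mul, map_pow, hσu, hσr, hσs, hσt] at hx hy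
  have hX : σ X = ζ⁻¹ ^ 2 * X := by
    have h1 : (C.u : K) ^ 2 * (ζ ^ 2 * σ X - X) = 0 := by linear_combination hx
    rcases mul_eq_zero.mp h1 with h | h
    · exact absurd (pow_eq_zero_iff (by norm_num) |>.mp h) hu0
    · field_simp
      linear_combination h
  refine ⟨hX, ?_⟩
  have h1 : (C.u : K) ^ 3 * (ζ ^ 3 * σ Y - Y) = 0 := by
    rw [hX] at hy
    have hz : ζ * ζ⁻¹ = 1 := mul_inv_cancel₀ hζ0
    linear_combination hy - (C.u : K) ^ 2 * C.s * X * (ζ * ζ⁻¹ + 1) * hz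
  rcases mul_eq_zero.mp h1 with h | h
  · exact absurd (pow_eq_zero_iff (by norm_num) |>.mp h) hu0
  · field_simp
    linear_combination h

/-- **Potentially good case**: `W` a curve over `K`, `C` a change of variables such that `C • W` is
in short form with integral coefficients and unit discriminant; `σ` inertia-like with
`σ u = ζ u`, `ζ⁻² - 1` or `ζ⁻³ - 1` a unit, fixing `r, s, t`.  Then `σ` cannot fix all the
multiples of a nonzero `5`-torsion point of `W`. -/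
theorem false_of_potGood {W : WeierstrassCurve K} {C : VariableChange K}
    (hE : IntegralCoeffs v (C • W)) (hΔ : v (C • W).Δ = 1) (h1 : (C • W).a₁ = 0)
    (h2 : (C • W).a₂ = 0) (h3 : (C • W).a₃ = 0) (hv2 : v (2 : K) = 1) (hv5 : v ((5 : ℕ) : K) = 1)
    {σ : K →+* K} (hsub : ∀ x, v x ≤ 1 → v (σ x - x) < 1) {ζ : K} (hζ0 : ζ ≠ 0)
    (hξ : v (ζ⁻¹ ^ 2 - 1) = 1 ∨ v (ζ⁻¹ ^ 3 - 1) = 1)
    (hσu : σ C.u = ζ * C.u) (hσr : σ C.r = C.r) (hσs : σ C.s = C.s) (hσt : σ C.t = C.t)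
    (T₀ : W.toAffine.Point) (hT5 : 5 • T₀ = 0) (hT0 : T₀ ≠ 0)
    (hfix : ∀ (k : ℕ) (x y : K) (h : W.toAffine.Nonsingular x y), k • T₀ = Point.some x y h →
      σ x = x ∧ σ y = y) : False := by
  set φ := Fermat.Agent.LR.VarChangePoint.pointEquiv W C with hφ
  refine false_of_twisted_fixed hE hΔ h1 h2 h3 hv2 hv5 hsub hξ (φ.symm T₀) ?_ ?_ ?_
  · rw [← map_nsmul, hT5, map_zero]
  · intro h0
    apply hT0
    have := congrArg φ h0
    rwa [AddEquiv.apply_symm_apply, map_zero] at this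
  · intro k X Y h hk
    have h4 : k • T₀ = φ (Point.some X Y h) := by
      rw [← hk, map_nsmul, AddEquiv.apply_symm_apply]
    rw [hφ, Fermat.Agent.LR.VarChangePoint.pointEquiv_some] at h4
    obtain ⟨hx, hy⟩ := hfix k _ _ _ h4
    exact twisted_of_fixed hζ0 hσu hσr hσs hσt hx hy

end Fermat.Agent.SW.K3.PotGood
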