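import Mathlib
import Fermat.Agent.S05.Val
import Fermat.Agent.BR.UnramCyclo
import Fermat.Agent.BR3.TameSurjFinal

/-!
# MOONSHOT S52, block K3 (3b), part 4: inertia moves the twelfth roots of the discriminant

`B` a valuation subring of `ℚ̄` over a prime `q ≥ 5`, `D = q^n D'` an integer with `q ∤ D'`,
`u^12 = D`.  Then some element `σ` of the inertia group of `B` has `σ u = ζ^n u` for a primitive
twelfth root of unity `ζ` all of whose nontrivial powers are `≢ 1` modulo the maximal ideal.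

Also: an inertia element `σ` with `σ ϖ = - ϖ`, `ϖ^2 = q`.
-/

set_option autoImplicit false

namespace Fermat.Agent.SW.K3.Tame

open Fermat.Agent.S05 Fermat.Agent.BR.UnramCyclo Fermat.Agent.BR3.TameSurj

local notation "Qbar" => AlgebraicClosure ℚ

variable (B : ValuationSubring Qbar) {q : ℕ}

theorem not_dvd_twelve (hq : q.Prime) (hq5 : 5 ≤ q) : ¬ q ∣ 12 := by
  intro h
  have h1 : q ∣ 6 ^ 2 := h.trans (by norm_num)
  have h2 : q ∣ 6 := hq.dvd_of_dvd_pow h1
  have h3 : q ≤ 6 := Nat.le_of_dvd (by norm_num) h2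
  interval_cases q
  · omega
  · exact absurd hq (by norm_num)

/-- **inertia moves the twelfth roots of `D`** -/
theorem exists_inertia_smul_root_disc (hq : q.Prime) (hq5 : 5 ≤ q) (hB : B.LiesOverPrime q)
    {D D' : ℤ} {n : ℕ} (hD : D = (q : ℤ) ^ n * D') (hD' : ¬ (q : ℤ) ∣ D') {u : Qbar}
    (hu : u ^ 12 = (D : Qbar)) :
    ∃ σ ∈ B.inertiaSubgroupIn ℚ, ∃ ζ : Qbar, IsPrimitiveRoot ζ 12 ∧ σ u = ζ ^ n * u ∧
      ∀ i : ℕ, ¬ 12 ∣ i → B.valuation (ζ ^ i - 1) = 1 := by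
  have hq12 : ¬ q ∣ 12 := not_dvd_twelve hq hq5
  obtain ⟨ϖ, hϖ⟩ := IsAlgClosed.exists_pow_nat_eq (q : Qbar) (by norm_num : 0 < 12)
  obtain ⟨σ, hσ, ζ, hζ, hσϖ, -, hunit, -⟩ :=
    exists_inertia_smul_root_primitive B hq hB hq12 hϖ
  refine ⟨σ, hσ, ζ, hζ, ?_, hunit⟩
  have hq0 : (q : Qbar) ≠ 0 := Nat.cast_ne_zero.mpr hq.ne_zero
  have hϖ0 : ϖ ≠ 0 := by
    rintro rfl
    rw [zero_pow (by norm_num)] at hϖ
    exact hq0 hϖ.symm
  have hD'0 : (D' : Qbar) ≠ 0 := by
    have : D' ≠ 0 := by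
      rintro rfl
      exact hD' (dvd_zero _)
    exact_mod_cast this
  -- `w = u / ϖ^n` is a twelfth root of the unit `D'`
  set w : Qbar := u / ϖ ^ n with hw
  have hw12 : w ^ 12 = (D' : Qbar) := by
    rw [hw, div_pow, hu, ← pow_mul, mul_comm n 12, pow_mul, hϖ, hD]
    push_cast
    field_simp
  have hw0 : w ≠ 0 := by
    intro h
    rw [h, zero_pow (by norm_num)] at hw12
    exact hD'0 hw12.symm
  have hvw : B.valuation w = 1 := by
    have h1 : B.valuation w ^ 12 = 1 := by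
      rw [← map_pow, hw12]
      exact val_intCast_eq_one B hq hB hD'
    exact (pow_eq_one_iff_of_nonneg zero_le (by norm_num)).mp h1
  -- `σ w = w`
  have hσw : σ w = w := by
    by_contra hne
    have h1 : (σ w / w) ^ 12 = 1 := by
      rw [div_pow, ← map_pow, hw12]
      have : σ ((D' : ℤ) : Qbar) = ((D' : ℤ) : Qbar) := map_intCast σ D'
      rw [this]
      exact div_self hD'0
    have h2 : σ w / w ≠ 1 := by
      intro h
      apply hne
      rw [div_eq_one_iff_eq hw0] at h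
      exact h
    have h3 : B.valuation (σ w / w - 1) = 1 :=
      valuation_sub_eq_one B hq ((B.mem_nonunits_iff).1 hB) (by norm_num : 0 < 12) hq12
        (one_pow 12) h1 h2
    have h4 : B.valuation (σ w - w) < 1 := inertia_sub_lt_one B hσ hvw.le
    have h5 : σ w - w = (σ w / w - 1) * w := by field_simp
    rw [h5, map_mul, h3, hvw, one_mul] at h4
    exact lt_irrefl _ h4
  have hu' : u = w * ϖ ^ n := by rw [hw]; field_simp
  rw [hu', map_mul, map_pow, hσw, hσϖ]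
  ring

/-- an inertia element with `σ ϖ = -ϖ`, `ϖ^2 = q` -/
theorem exists_inertia_neg_sqrt (hq : q.Prime) (hq5 : 5 ≤ q) (hB : B.LiesOverPrime q)
    {ϖ : Qbar} (hϖ : ϖ ^ 2 = (q : Qbar)) :
    ∃ σ ∈ B.inertiaSubgroupIn ℚ, σ ϖ = -ϖ := by
  have hq2 : ¬ q ∣ 2 := by
    intro h
    have := Nat.le_of_dvd (by norm_num) h
    omega
  obtain ⟨σ, hσ, hσϖ, -⟩ := exists_inertia_smul_root B hq hB hq2 hϖ
    (by norm_num : (-1 : Qbar) ^ 2 = 1)
  exact ⟨σ, hσ, by rw [hσϖ]; ring⟩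

end Fermat.Agent.SW.K3.Tame
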