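import Mathlib
import Fermat.Agent.EC.Tor.Main
import Fermat.Agent.SW.K3.CurveQ
import Fermat.Agent.SW.K3.PotGood
import Fermat.Agent.SW.K3.Tame

/-!
# MOONSHOT S52, block K3 (3b), part 7: the potentially good case over `ℚ̄`

`W : WeierstrassCurve ℤ`, `q > 5` prime, `Δ(W) = q^n Δ'` with `0 < n < 12`, `q ∤ Δ'`,
`q^n ∣ c₄^3`, `q^n ∣ c₆^2`.  Then the inertia group at a valuation subring `B` of `ℚ̄` over `q`
does not act trivially on the `5`-torsion of `W` over `ℚ̄`.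
-/

set_option autoImplicit false

namespace Fermat.Agent.SW.K3.PotGoodQ

open WeierstrassCurve WeierstrassCurve.Affine Fermat.Agent.S05 Fermat.Agent.SW.K3.Short
  Fermat.Agent.SW.K3.CurveQ
open scoped WeierstrassCurve.Affine

local notation "Qbar" => AlgebraicClosure ℚ

variable [DecidableEq Qbar]

omit [DecidableEq Qbar] in
theorem val_ofNat_eq_one (B : ValuationSubring Qbar) {q : ℕ} (hq : q.Prime)
    (hB : B.LiesOverPrime q) {m : ℕ} (hm : ¬ q ∣ m) : B.valuation ((m : ℕ) : Qbar) = 1 :=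
  Fermat.Agent.EC.Mult.Main.val_natCast_eq_one hq hB hm

omit [DecidableEq Qbar] in
theorem not_dvd_of_dvd_pow_thirty {q m k : ℕ} (hq : q.Prime) (hq5 : 5 < q) (hm : m ∣ 30 ^ k) :
    ¬ q ∣ m := by
  intro h
  have h1 : q ∣ 30 := hq.dvd_of_dvd_pow (h.trans hm)
  have h2 : q ≤ 30 := Nat.le_of_dvd (by norm_num) h1
  interval_cases q <;> first | omega | exact absurd hq (by norm_num)

/-- **the potentially good case** -/
theorem false_of_potGood_Q (W : WeierstrassCurve ℤ) {q : ℕ} (hq : q.Prime) (hq5 : 5 < q)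
    (B : ValuationSubring Qbar) (hB : B.LiesOverPrime q) {n : ℕ} {Δ' : ℤ} (hn0 : 0 < n)
    (hn12 : n < 12) (hΔ : W.Δ = (q : ℤ) ^ n * Δ') (hΔ' : ¬ (q : ℤ) ∣ Δ')
    (h4 : (q : ℤ) ^ n ∣ W.c₄ ^ 3) (h6 : (q : ℤ) ^ n ∣ W.c₆ ^ 2)
    (hfix : ∀ σ ∈ B.inertiaSubgroupIn ℚ, ∀ T : (EQ W).toAffine.Point, 5 • T = 0 → σ • T = T) :
    False := by
  set v := B.valuation with hv
  have hq0 : (q : Qbar) ≠ 0 := Nat.cast_ne_zero.mpr hq.ne_zero
  have hΔ'0 : Δ' ≠ 0 := by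
    rintro rfl
    exact hΔ' (dvd_zero _)
  have hΔ0 : W.Δ ≠ 0 := by
    rw [hΔ]
    exact mul_ne_zero (pow_ne_zero _ (by exact_mod_cast hq.ne_zero)) hΔ'0
  have hΔQ : (EQ W).Δ ≠ 0 := by
    rw [EQ_Δ]
    exact_mod_cast hΔ0
  -- units
  have hunit : ∀ m : ℕ, ¬ q ∣ m → v ((m : ℕ) : Qbar) = 1 := fun m hm => val_ofNat_eq_one B hq hB hm
  have hq2 : ¬ q ∣ 2 := not_dvd_of_dvd_pow_thirty (k := 1) hq hq5 (by norm_num)
  have hq5' : ¬ q ∣ 5 := not_dvd_of_dvd_pow_thirty (k := 1) hq hq5 (by norm_num)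
  have hq48 : ¬ q ∣ 48 := not_dvd_of_dvd_pow_thirty (k := 4) hq hq5 (by norm_num)
  have hq864 : ¬ q ∣ 864 := not_dvd_of_dvd_pow_thirty (k := 5) hq hq5 (by norm_num)
  have hv2 : v (2 : Qbar) = 1 := by simpa using hunit 2 hq2
  have hv5 : v ((5 : ℕ) : Qbar) = 1 := hunit 5 hq5'
  have hv48 : v (48 : Qbar) = 1 := by simpa using hunit 48 hq48
  have hv864 : v (864 : Qbar) = 1 := by simpa using hunit 864 hq864
  have h2ne : (2 : Qbar) ≠ 0 := two_ne_zero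
  have h3ne : (3 : Qbar) ≠ 0 := three_ne_zero
  -- the twelfth root of the discriminant
  obtain ⟨u, hu⟩ := IsAlgClosed.exists_pow_nat_eq ((W.Δ : ℤ) : Qbar) (by norm_num : 0 < 12)
  have hu0 : u ≠ 0 := by
    rintro rfl
    rw [zero_pow (by norm_num)] at hu
    exact hΔQ (by rw [EQ_Δ]; exact hu.symm)
  set uU : Qbarˣ := Units.mk0 u hu0 with huU
  have huinv : ((uU⁻¹ : Qbarˣ) : Qbar) = u⁻¹ := by rw [huU, Units.val_inv_eq_inv_val, Units.val_mk0]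
  set C := shortVC (EQ W) uU with hC
  -- valuations
  have hvΔ : v ((W.Δ : ℤ) : Qbar) = v (q : Qbar) ^ n := by
    rw [hΔ]
    push_cast
    rw [map_mul, map_pow, val_intCast_eq_one B hq hB hΔ', mul_one]
  have hvu : v u⁻¹ ^ 12 * v (q : Qbar) ^ n = 1 := by
    rw [← hvΔ, ← map_pow, ← map_mul, ← hu, inv_pow, inv_mul_cancel₀ (pow_ne_zero _ hu0), map_one]
  have hvc₄ : v ((W.c₄ : ℤ) : Qbar) ^ 3 ≤ v (q : Qbar) ^ n := by
    obtain ⟨m, hm⟩ := h4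
    have : ((W.c₄ : ℤ) : Qbar) ^ 3 = (q : Qbar) ^ n * ((m : ℤ) : Qbar) := by exact_mod_cast hm
    rw [← map_pow, this, map_mul, map_pow]
    calc v (q : Qbar) ^ n * v ((m : ℤ) : Qbar) ≤ v (q : Qbar) ^ n * 1 :=
          mul_le_mul_right (val_intCast_le_one B m) _
      _ = v (q : Qbar) ^ n := mul_one _
  have hvc₆ : v ((W.c₆ : ℤ) : Qbar) ^ 2 ≤ v (q : Qbar) ^ n := by
    obtain ⟨m, hm⟩ := h6
    have : ((W.c₆ : ℤ) : Qbar) ^ 2 = (q : Qbar) ^ n * ((m : ℤ) : Qbar) := by exact_mod_cast hm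
    rw [← map_pow, this, map_mul, map_pow]
    calc v (q : Qbar) ^ n * v ((m : ℤ) : Qbar) ≤ v (q : Qbar) ^ n * 1 :=
          mul_le_mul_right (val_intCast_le_one B m) _
      _ = v (q : Qbar) ^ n := mul_one _
  -- the scaled short model has integral coefficients
  have ha₁ : (C • EQ W).a₁ = 0 := shortVC_a₁ (EQ W) h2ne uU
  have ha₂ : (C • EQ W).a₂ = 0 := shortVC_a₂ (EQ W) h2ne h3ne uU
  have ha₃ : (C • EQ W).a₃ = 0 := shortVC_a₃ (EQ W) h2ne uU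
  have ha₄ : v (C • EQ W).a₄ ≤ 1 := by
    have e := shortVC_a₄ (EQ W) h2ne h3ne uU
    have e' : v (C • EQ W).a₄ = v u⁻¹ ^ 4 * v ((W.c₄ : ℤ) : Qbar) := by
      have := congrArg v e
      rwa [map_mul, hv48, one_mul, Valuation.map_neg, map_mul, map_pow, huinv, EQ_c₄] at this
    rw [e']
    apply (pow_le_one_iff_of_nonneg zero_le (by norm_num : (3 : ℕ) ≠ 0)).mp
    calc (v u⁻¹ ^ 4 * v ((W.c₄ : ℤ) : Qbar)) ^ 3
        = v u⁻¹ ^ 12 * v ((W.c₄ : ℤ) : Qbar) ^ 3 := by rw [mul_pow, ← pow_mul]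
      _ ≤ v u⁻¹ ^ 12 * v (q : Qbar) ^ n := mul_le_mul_right hvc₄ _
      _ = 1 := hvu
  have ha₆ : v (C • EQ W).a₆ ≤ 1 := by
    have e := shortVC_a₆ (EQ W) h2ne h3ne uU
    have e' : v (C • EQ W).a₆ = v u⁻¹ ^ 6 * v ((W.c₆ : ℤ) : Qbar) := by
      have := congrArg v e
      rwa [map_mul, hv864, one_mul, Valuation.map_neg, map_mul, map_pow, huinv, EQ_c₆] at this
    rw [e']
    apply (pow_le_one_iff_of_nonneg zero_le (by norm_num : (2 : ℕ) ≠ 0)).mp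
    calc (v u⁻¹ ^ 6 * v ((W.c₆ : ℤ) : Qbar)) ^ 2
        = v u⁻¹ ^ 12 * v ((W.c₆ : ℤ) : Qbar) ^ 2 := by rw [mul_pow, ← pow_mul]
      _ ≤ v u⁻¹ ^ 12 * v (q : Qbar) ^ n := mul_le_mul_right hvc₆ _
      _ = 1 := hvu
  have hE : IntegralCoeffs v (C • EQ W) :=
    ⟨by rw [ha₁, map_zero]; exact zero_le_one, by rw [ha₂, map_zero]; exact zero_le_one,
      by rw [ha₃, map_zero]; exact zero_le_one, ha₄, ha₆⟩
  have hEΔ : v (C • EQ W).Δ = 1 := by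
    rw [hC, shortVC_Δ, huinv, EQ_Δ, ← hu, inv_pow, inv_mul_cancel₀ (pow_ne_zero _ hu0), map_one]
  -- the inertia element
  obtain ⟨σ, hσ, ζ, hζ, hσu, hζunit⟩ :=
    Fermat.Agent.SW.K3.Tame.exists_inertia_smul_root_disc B hq (by omega) hB hΔ hΔ' hu
  have hζ0 : ζ ≠ 0 := hζ.ne_zero (by norm_num)
  have hζn0 : ζ ^ n ≠ 0 := pow_ne_zero _ hζ0
  have hinv : (ζ ^ n)⁻¹ = ζ ^ (11 * n) := by
    apply inv_eq_of_mul_eq_one_right
    rw [← pow_add, show n + 11 * n = 12 * n by ring, pow_mul, hζ.pow_eq_one, one_pow]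
  have hξ : v ((ζ ^ n)⁻¹ ^ 2 - 1) = 1 ∨ v ((ζ ^ n)⁻¹ ^ 3 - 1) = 1 := by
    rw [hinv, ← pow_mul, ← pow_mul]
    by_cases h : 12 ∣ 11 * n * 2
    · right
      exact hζunit _ (by omega)
    · left
      exact hζunit _ h
  obtain ⟨hσr, hσs, hσt⟩ := shortVC_fixed W (σ : Qbar →+* Qbar) uU
  -- a point of order `5`
  obtain ⟨T₀, hT₀⟩ := Fermat.Agent.EC.Tor.Main.exists_addOrderOf_eq_prime_pow (EQ W).toAffine hΔQ
    (l := 5) (by norm_num) (by exact_mod_cast (by norm_num : (5 : ℕ) ≠ 0)) 1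
  rw [pow_one] at hT₀
  have hT5 : 5 • T₀ = 0 := by rw [← hT₀]; exact addOrderOf_nsmul_eq_zero T₀
  have hT0 : T₀ ≠ 0 := by
    rintro rfl
    rw [addOrderOf_zero] at hT₀
    norm_num at hT₀
  refine Fermat.Agent.SW.K3.PotGood.false_of_potGood (v := v) (W := EQ W) (C := C) hE hEΔ ha₁ ha₂ ha₃
    hv2 hv5 (σ := (σ : Qbar →+* Qbar)) (fun x hx => inertia_sub_lt_one B hσ hx) hζn0 hξ hσu hσr
    hσs hσt T₀ hT5 hT0 ?_
  intro k x y h hk
  have h5k : 5 • (k • T₀) = 0 := by rw [smul_comm, hT5, smul_zero]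
  have hfx := hfix σ hσ (k • T₀) h5k
  rw [hk, Point.algEquiv_smul_def, Point.map_some] at hfx
  simp only [Point.some.injEq] at hfx
  exact hfx

end Fermat.Agent.SW.K3.PotGoodQ
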