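import Mathlib
import Fermat.Agent.LR.VarChangePoint

/-!
# MOONSHOT S52, block K3 (3b), part 5: the potentially multiplicative case, abstract form

`W` a curve over a field `K`, `C = (u, r, s, t)` a change of variables with `(C • W).a₁ = 0`,
`(C • W).a₃ = 0`; `σ` a ring endomorphism of `K` with `σ u = -u` fixing `r, s, t`.  If `(X, Y)` is
a `σ`-fixed point of `C • W`, its image `(x, y)` in `W` satisfies `(σ x, σ y) = -(x, y)`.
-/

set_option autoImplicit false

namespace Fermat.Agent.SW.K3.PotMult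

open WeierstrassCurve WeierstrassCurve.Affine Fermat.Agent.LR.VarChangePoint

variable {K : Type*} [Field K] {W : WeierstrassCurve K} {C : VariableChange K}

/-- coordinates: `σ` acts on the image of a `σ`-fixed point of the twist as negation -/
theorem map_coords_of_twist (h1 : (C • W).a₁ = 0) (h3 : (C • W).a₃ = 0) {σ : K →+* K}
    (hσu : σ C.u = -C.u) (hσr : σ C.r = C.r) (hσs : σ C.s = C.s) (hσt : σ C.t = C.t) {X Y : K}
    (hX : σ X = X) (hY : σ Y = Y) :
    σ (vcX C X) = vcX C X ∧ σ (vcY C X Y) = W.toAffine.negY (vcX C X) (vcY C X Y) := by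
  constructor
  · simp only [vcX, map_add, map_mul, map_pow, hσu, hσr, hX]
    ring
  · rw [← vc_negY]
    simp only [negY, h1, h3, vcY, map_add, map_mul, map_pow, hσu, hσs, hσt, hX, hY]
    ring

variable [DecidableEq K]

/-- points: the image `T` of a `σ`-fixed point of the twist has `(σ x, σ y) = -T` -/
theorem neg_eq_of_twist (h1 : (C • W).a₁ = 0) (h3 : (C • W).a₃ = 0) {σ : K →+* K}
    (hσu : σ C.u = -C.u) (hσr : σ C.r = C.r) (hσs : σ C.s = C.s) (hσt : σ C.t = C.t) {X Y : K}
    (h : (C • W).toAffine.Nonsingular X Y) (hX : σ X = X) (hY : σ Y = Y) :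
    ∃ (x y : K) (hxy : W.toAffine.Nonsingular x y) (hxy' : W.toAffine.Nonsingular (σ x) (σ y)),
      Fermat.Agent.LR.VarChangePoint.pointEquiv W C (Point.some X Y h) = Point.some x y hxy ∧
      -(Point.some x y hxy) = Point.some (σ x) (σ y) hxy' := by
  obtain ⟨e1, e2⟩ := map_coords_of_twist (W := W) h1 h3 hσu hσr hσs hσt hX hY
  have hxy : W.toAffine.Nonsingular (vcX C X) (vcY C X Y) := (vc_nonsingular W C X Y).mpr h
  have hneg : W.toAffine.Nonsingular (vcX C X) (W.toAffine.negY (vcX C X) (vcY C X Y)) :=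
    (nonsingular_neg (W' := W.toAffine) _ _).mpr hxy
  refine ⟨vcX C X, vcY C X Y, hxy, by rw [e1, e2]; exact hneg, rfl, ?_⟩
  rw [Point.neg_some]
  congr 1
  · exact e1.symm
  · exact e2.symm

end Fermat.Agent.SW.K3.PotMult
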