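import Mathlib
import Fermat.Agent.EC.Mult.Main
import Fermat.Agent.SW.K3.CurveQ
import Fermat.Agent.SW.K3.PotMult
import Fermat.Agent.SW.K3.PotGoodQ
import Fermat.Agent.SW.K3.Tame

/-!
# MOONSHOT S52, block K3 (3b), part 8: the potentially multiplicative case over `ℚ̄`

`W : WeierstrassCurve ℤ`, `Δ ≠ 0`, `q > 5` prime, `c₄ = q^2 c₄'`, `c₆ = q^3 c₆'`, `q ∤ c₄'`,
`q^7 ∣ Δ`.  The quadratic twist by `q` has the integral model
`twist = ⟨0, 0, 0, -27 c₄', -54 c₆'⟩`, multiplicative at `q`; an inertia-fixed point of order `5`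
on it (`EC.Mult.Main.exists_addOrderOf_eq_fixed`) is mapped to a point `T` of `W` over `ℚ̄` with
`σ T = -T` for an inertia element `σ` with `σ √q = -√q`.  Hence the inertia group does not act
trivially on the `5`-torsion of `W`.
-/

set_option autoImplicit false

namespace Fermat.Agent.SW.K3.PotMultQ

open WeierstrassCurve WeierstrassCurve.Affine Fermat.Agent.S05 Fermat.Agent.SW.K3.Short
  Fermat.Agent.SW.K3.CurveQ Fermat.Agent.LR.VarChangePoint
open scoped WeierstrassCurve.Affine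

local notation "Qbar" => AlgebraicClosure ℚ

/-- the integral model of the quadratic twist by `q` -/
def twist (c₄' c₆' : ℤ) : WeierstrassCurve ℤ := ⟨0, 0, 0, -27 * c₄', -54 * c₆'⟩

theorem twist_c₄ (c₄' c₆' : ℤ) : (twist c₄' c₆').c₄ = 1296 * c₄' := by
  simp only [twist, c₄, b₂, b₄]; ring

theorem twist_Δ (c₄' c₆' : ℤ) : (twist c₄' c₆').Δ = 1259712 * (c₄' ^ 3 - c₆' ^ 2) := by
  simp only [twist, WeierstrassCurve.Δ, b₂, b₄, b₆, b₈]; ring

variable [DecidableEq Qbar]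

/-- **the potentially multiplicative case** -/
theorem false_of_potMult_Q (W : WeierstrassCurve ℤ) (hΔ0 : W.Δ ≠ 0) {q : ℕ} (hq : q.Prime)
    (hq5 : 5 < q) (B : ValuationSubring Qbar) (hB : B.LiesOverPrime q) {c₄' c₆' : ℤ}
    (h4 : W.c₄ = (q : ℤ) ^ 2 * c₄') (h6 : W.c₆ = (q : ℤ) ^ 3 * c₆') (hc₄' : ¬ (q : ℤ) ∣ c₄')
    (h7 : (q : ℤ) ^ 7 ∣ W.Δ)
    (hfix : ∀ σ ∈ B.inertiaSubgroupIn ℚ, ∀ T : (EQ W).toAffine.Point, 5 • T = 0 → σ • T = T) :
    False := by
  have hqZ : Prime (q : ℤ) := Nat.prime_iff_prime_int.mp hq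
  have hq0 : (q : Qbar) ≠ 0 := Nat.cast_ne_zero.mpr hq.ne_zero
  have hqZ0 : (q : ℤ) ≠ 0 := hqZ.ne_zero
  -- the twist is multiplicative at `q`
  have hrel : (q : ℤ) ^ 6 * (c₄' ^ 3 - c₆' ^ 2) = 1728 * W.Δ := by
    rw [W.c_relation, h4, h6]; ring
  have hd0 : c₄' ^ 3 - c₆' ^ 2 ≠ 0 := by
    intro h0
    rw [h0, mul_zero] at hrel
    have : W.Δ = 0 := by
      have h1 : (1728 : ℤ) * W.Δ = 0 := hrel.symm
      rcases mul_eq_zero.mp h1 with h | h
      · norm_num at h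
      · exact h
    exact hΔ0 this
  have htwΔ0 : (twist c₄' c₆').Δ ≠ 0 := by
    rw [twist_Δ]
    exact mul_ne_zero (by norm_num) hd0
  have htwΔ : (q : ℤ) ∣ (twist c₄' c₆').Δ := by
    rw [twist_Δ]
    apply Dvd.dvd.mul_left
    have h1 : (q : ℤ) ^ 6 * (q : ℤ) ∣ (q : ℤ) ^ 6 * (c₄' ^ 3 - c₆' ^ 2) := by
      rw [hrel, ← pow_succ]
      exact Dvd.dvd.mul_left h7 _
    exact (mul_dvd_mul_iff_left (pow_ne_zero 6 hqZ0)).mp h1
  have hq1296 : ¬ (q : ℤ) ∣ 1296 := by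
    intro h
    have h1 : q ∣ 1296 := by exact_mod_cast Int.natCast_dvd_natCast.mp (by exact_mod_cast h)
    exact Fermat.Agent.SW.K3.PotGoodQ.not_dvd_of_dvd_pow_thirty (k := 4) hq hq5 (by norm_num) h1
  have htwc₄ : ¬ (q : ℤ) ∣ (twist c₄' c₆').c₄ := by
    rw [twist_c₄]
    intro h
    rcases hqZ.dvd_or_dvd h with h | h
    · exact hq1296 h
    · exact hc₄' h
  obtain ⟨P, hP5, hPfix⟩ := Fermat.Agent.EC.Mult.Main.exists_addOrderOf_eq_fixed
    (twist c₄' c₆') htwΔ0 hq htwΔ htwc₄ B hB (m := 5) (by norm_num)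
    (Fermat.Agent.SW.K3.PotGoodQ.not_dvd_of_dvd_pow_thirty (k := 1) hq hq5 (by norm_num))
  -- the square root of `q` and the change of variables
  obtain ⟨ϖ, hϖ⟩ := IsAlgClosed.exists_pow_nat_eq (q : Qbar) (by norm_num : 0 < 2)
  have hϖ0 : ϖ ≠ 0 := by
    rintro rfl
    rw [zero_pow (by norm_num)] at hϖ
    exact hq0 hϖ.symm
  have hu0 : ϖ / 6 ≠ 0 := div_ne_zero hϖ0 (by norm_num)
  set uU : Qbarˣ := Units.mk0 (ϖ / 6) hu0 with huU
  have huinv : ((uU⁻¹ : Qbarˣ) : Qbar) = 6 / ϖ := by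
    rw [huU, Units.val_inv_eq_inv_val, Units.val_mk0, inv_div]
  set C := shortVC (EQ W) uU with hC
  have h2ne : (2 : Qbar) ≠ 0 := two_ne_zero
  have h3ne : (3 : Qbar) ≠ 0 := three_ne_zero
  have ha₁ : (C • EQ W).a₁ = 0 := shortVC_a₁ (EQ W) h2ne uU
  have ha₂ : (C • EQ W).a₂ = 0 := shortVC_a₂ (EQ W) h2ne h3ne uU
  have ha₃ : (C • EQ W).a₃ = 0 := shortVC_a₃ (EQ W) h2ne uU
  have heq : C • EQ W = EQ (twist c₄' c₆') := by
    ext
    · rw [ha₁, EQ_a₁]; simp [twist]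
    · rw [ha₂, EQ_a₂]; simp [twist]
    · rw [ha₃, EQ_a₃]; simp [twist]
    · have e := shortVC_a₄ (EQ W) h2ne h3ne uU
      rw [← hC, huinv, EQ_c₄, h4] at e
      rw [EQ_a₄]
      have h48 : (48 : Qbar) ≠ 0 := by norm_num
      apply mul_left_cancel₀ h48
      rw [e]
      simp only [twist]
      push_cast
      have : (6 / ϖ) ^ 4 = 1296 / (q : Qbar) ^ 2 := by
        rw [div_pow, ← hϖ, ← pow_mul]; norm_num
      rw [this]
      field_simp
      ring
    · have e := shortVC_a₆ (EQ W) h2ne h3ne uU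
      rw [← hC, huinv, EQ_c₆, h6] at e
      rw [EQ_a₆]
      have h864 : (864 : Qbar) ≠ 0 := by norm_num
      apply mul_left_cancel₀ h864
      rw [e]
      simp only [twist]
      push_cast
      have : (6 / ϖ) ^ 6 = 46656 / (q : Qbar) ^ 3 := by
        rw [div_pow, ← hϖ, ← pow_mul]; norm_num
      rw [this]
      field_simp
      ring
  -- the inertia element
  obtain ⟨σ, hσ, hσϖ⟩ := Fermat.Agent.SW.K3.Tame.exists_inertia_neg_sqrt B hq (by omega) hB hϖ
  have hσu : (σ : Qbar →+* Qbar) C.u = -C.u := by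
    show σ (uU : Qbar) = -(uU : Qbar)
    rw [huU, Units.val_mk0, map_div₀, hσϖ, map_ofNat]
    ring
  obtain ⟨hσr, hσs, hσt⟩ := shortVC_fixed W (σ : Qbar →+* Qbar) uU
  -- the fixed point of order `5`
  have hP0 : P ≠ 0 := by
    rintro rfl
    rw [addOrderOf_zero] at hP5
    norm_num at hP5
  rcases P with _ | ⟨X, Y, h⟩
  · exact hP0 rfl
  have hfx := hPfix σ hσ
  rw [Point.algEquiv_smul_def, Point.map_some] at hfx
  simp only [Point.some.injEq] at hfx
  obtain ⟨hX, hY⟩ := hfx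
  have h' : (C • EQ W).toAffine.Nonsingular X Y := heq ▸ h
  obtain ⟨x, y, hxy, hxy', hT, hneg⟩ := Fermat.Agent.SW.K3.PotMult.neg_eq_of_twist
    (W := EQ W) (C := C) ha₁ ha₃ hσu hσr hσs hσt h' hX hY
  -- `T = (x, y)` has order `5`
  have hcast : pointCast heq.symm (Point.some X Y h) = Point.some X Y h' :=
    pointCast_some heq.symm h
  have hT5 : 5 • (Point.some x y hxy : (EQ W).toAffine.Point) = 0 := by
    rw [← hT, ← hcast, ← map_nsmul, ← map_nsmul, ← hP5, addOrderOf_nsmul_eq_zero, map_zero,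
      map_zero]
  have hfT := hfix σ hσ _ hT5
  rw [Point.algEquiv_smul_def, Point.map_some] at hfT
  have hnegT : -(Point.some x y hxy : (EQ W).toAffine.Point) = Point.some x y hxy := by
    rw [hneg]
    exact hfT
  have h2T : 2 • (Point.some x y hxy : (EQ W).toAffine.Point) = 0 := by
    rw [two_nsmul]
    nth_rewrite 1 [← hnegT]
    exact neg_add_cancel _
  have h2P : 2 • (Point.some X Y h : (EQ (twist c₄' c₆')).toAffine.Point) = 0 := by
    have h1 : Fermat.Agent.LR.VarChangePoint.pointEquiv (EQ W) C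
        (pointCast heq.symm (2 • (Point.some X Y h))) = 0 := by
      rw [map_nsmul, map_nsmul, hcast, hT, h2T]
    have h2 := (AddEquiv.map_eq_zero_iff _).mp h1
    exact (AddEquiv.map_eq_zero_iff _).mp h2
  have hdvd := addOrderOf_dvd_of_nsmul_eq_zero h2P
  rw [hP5] at hdvd
  omega

end Fermat.Agent.SW.K3.PotMultQ
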