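import Mathlib

/-!
# MOONSHOT S52, block K3 (3b), part 1: the arithmetic case split at an additive prime

`c₄, c₆, Δ : ℤ` with `1728 Δ = c₄^3 - c₆^2`, `Δ ≠ 0`, `q` a prime with `q ∣ Δ`, `q ∣ c₄` and
`(c₄, c₆)` minimal at `q`.  Then either

* (G) (potentially good) `Δ = q^n Δ'` with `0 < n < 12`, `q ∤ Δ'`, `q^n ∣ c₄^3`, `q^n ∣ c₆^2`, or
* (M) (potentially multiplicative) `c₄ = q^2 c₄'`, `c₆ = q^3 c₆'`, `q ∤ c₄'`, `q^7 ∣ Δ`.
-/

set_option autoImplicit false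

namespace Fermat.Agent.SW.K3.Split

theorem exists_pow_mul {q : ℕ} (hq : q.Prime) {x : ℤ} (hx : x ≠ 0) :
    ∃ (n : ℕ) (x' : ℤ), x = (q : ℤ) ^ n * x' ∧ ¬ (q : ℤ) ∣ x' := by
  have hfin : FiniteMultiplicity (q : ℤ) x := by
    rw [Int.finiteMultiplicity_iff]
    refine ⟨?_, hx⟩
    rw [Int.natAbs_natCast]
    exact hq.one_lt.ne'
  obtain ⟨c, hc, hnd⟩ := hfin.exists_eq_pow_mul_and_not_dvd
  exact ⟨_, c, hc, hnd⟩

theorem pow_mul_unique_aux {q : ℤ} (hq : Prime q) {i j : ℕ} {x y : ℤ} (hx : ¬ q ∣ x)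
    (h : q ^ i * x = q ^ j * y) : j ≤ i := by
  by_contra hlt
  push Not at hlt
  obtain ⟨k, rfl⟩ := Nat.exists_eq_add_of_lt hlt
  apply hx
  have h0 : q ^ i ≠ 0 := pow_ne_zero _ hq.ne_zero
  have h1 : q ^ i * x = q ^ i * (q ^ (k + 1) * y) := by rw [h]; ring
  have h2 := mul_left_cancel₀ h0 h1
  rw [h2]
  exact Dvd.dvd.mul_right (dvd_pow_self q (Nat.succ_ne_zero k)) y

theorem pow_mul_unique {q : ℤ} (hq : Prime q) {i j : ℕ} {x y : ℤ} (hx : ¬ q ∣ x) (hy : ¬ q ∣ y)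
    (h : q ^ i * x = q ^ j * y) : i = j :=
  le_antisymm (pow_mul_unique_aux hq hy h.symm) (pow_mul_unique_aux hq hx h)

theorem not_dvd_pow {q : ℤ} (hq : Prime q) {x : ℤ} (hx : ¬ q ∣ x) (k : ℕ) : ¬ q ∣ x ^ k :=
  fun h => hx (hq.dvd_of_dvd_pow h)

/-- the case split -/
theorem split (c₄ c₆ Δ : ℤ) (hrel : 1728 * Δ = c₄ ^ 3 - c₆ ^ 2) (hΔ0 : Δ ≠ 0) {q : ℕ}
    (hq : q.Prime) (hq5 : 5 ≤ q) (hqΔ : (q : ℤ) ∣ Δ) (hqc : (q : ℤ) ∣ c₄)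
    (hmin : ¬ (((q : ℤ) ^ 4 ∣ c₄) ∧ ((q : ℤ) ^ 6 ∣ c₆))) :
    (∃ (n : ℕ) (Δ' : ℤ), 0 < n ∧ n < 12 ∧ Δ = (q : ℤ) ^ n * Δ' ∧ ¬ (q : ℤ) ∣ Δ' ∧
      (q : ℤ) ^ n ∣ c₄ ^ 3 ∧ (q : ℤ) ^ n ∣ c₆ ^ 2) ∨
    (∃ (c₄' c₆' : ℤ), c₄ = (q : ℤ) ^ 2 * c₄' ∧ c₆ = (q : ℤ) ^ 3 * c₆' ∧ ¬ (q : ℤ) ∣ c₄' ∧
      (q : ℤ) ^ 7 ∣ Δ) := by
  have hqZ : Prime (q : ℤ) := Nat.prime_iff_prime_int.mp hq
  obtain ⟨n, Δ', hΔ, hΔ'⟩ := exists_pow_mul hq hΔ0
  have hn : 0 < n := by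
    rcases Nat.eq_zero_or_pos n with h | h
    · subst h
      rw [pow_zero, one_mul] at hΔ
      rw [hΔ] at hqΔ
      exact absurd hqΔ hΔ'
    · exact h
  have hq1728 : ¬ (q : ℤ) ∣ 1728 := by
    intro h
    have h1 : q ∣ 1728 := by exact_mod_cast Int.natCast_dvd_natCast.mp (by exact_mod_cast h)
    have h3 : q ∣ 6 ^ 6 := h1.trans (by norm_num)
    have h4 : q ∣ 6 := hq.dvd_of_dvd_pow h3
    have h5 : q ≤ 6 := Nat.le_of_dvd (by norm_num) h4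
    interval_cases q
    · omega
    · exact absurd hq (by norm_num)
  by_cases hA : (q : ℤ) ^ n ∣ c₄ ^ 3
  · -- potentially good
    left
    have hB : (q : ℤ) ^ n ∣ c₆ ^ 2 := by
      have h1 : c₆ ^ 2 = c₄ ^ 3 - 1728 * Δ := by linear_combination hrel
      rw [h1, hΔ]
      exact dvd_sub hA (Dvd.dvd.mul_left (Dvd.intro _ rfl) _)
    refine ⟨n, Δ', hn, ?_, hΔ, hΔ', hA, hB⟩
    by_contra h12
    push Not at h12
    apply hmin
    constructor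
    · have h1 : ((q : ℤ) ^ 4) ^ 3 ∣ c₄ ^ 3 := by
        rw [← pow_mul]
        exact (pow_dvd_pow (q : ℤ) h12).trans hA
      exact (Int.pow_dvd_pow_iff (by norm_num)).mp h1
    · have h1 : ((q : ℤ) ^ 6) ^ 2 ∣ c₆ ^ 2 := by
        rw [← pow_mul]
        exact (pow_dvd_pow (q : ℤ) h12).trans hB
      exact (Int.pow_dvd_pow_iff (by norm_num)).mp h1
  · -- potentially multiplicative
    right
    have hc₄0 : c₄ ≠ 0 := by
      rintro rfl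
      exact hA (by simp)
    obtain ⟨a, c₄', hc₄, hc₄'⟩ := exists_pow_mul hq hc₄0
    have ha : 0 < a := by
      rcases Nat.eq_zero_or_pos a with h | h
      · subst h
        rw [pow_zero, one_mul] at hc₄
        rw [hc₄] at hqc
        exact absurd hqc hc₄'
      · exact h
    have h3a : 3 * a < n := by
      by_contra hle
      push Not at hle
      apply hA
      rw [hc₄, mul_pow, ← pow_mul, mul_comm a 3]
      exact Dvd.dvd.mul_right (pow_dvd_pow (q : ℤ) hle) _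
    obtain ⟨k, hk⟩ := Nat.exists_eq_add_of_lt h3a
    -- `c₆^2 = q^(3a) * m` with `q ∤ m`
    set m : ℤ := c₄' ^ 3 - 1728 * ((q : ℤ) ^ (k + 1) * Δ') with hm
    have hc₆sq : c₆ ^ 2 = (q : ℤ) ^ (3 * a) * m := by
      have h1 : c₆ ^ 2 = c₄ ^ 3 - 1728 * Δ := by linear_combination hrel
      rw [h1, hΔ, hc₄, hm, hk]
      ring
    have hqm : ¬ (q : ℤ) ∣ m := by
      intro h
      have h1 : (q : ℤ) ∣ c₄' ^ 3 := by
        have h2 : c₄' ^ 3 = m + 1728 * ((q : ℤ) ^ (k + 1) * Δ') := by rw [hm]; ring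
        rw [h2]
        exact dvd_add h (Dvd.dvd.mul_left (Dvd.dvd.mul_right
          (dvd_pow_self (q : ℤ) (Nat.succ_ne_zero k)) _) _)
      exact not_dvd_pow hqZ hc₄' 3 h1
    have hc₆0 : c₆ ≠ 0 := by
      rintro rfl
      have h1 : (q : ℤ) ^ (3 * a) * m = 0 := by rw [← hc₆sq]; ring
      rcases mul_eq_zero.mp h1 with h2 | h2
      · exact pow_ne_zero _ hqZ.ne_zero h2
      · exact hqm (by rw [h2]; exact dvd_zero _)
    obtain ⟨b, c₆', hc₆, hc₆'⟩ := exists_pow_mul hq hc₆0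
    have h2b : 2 * b = 3 * a := by
      apply pow_mul_unique hqZ (not_dvd_pow hqZ hc₆' 2) hqm
      rw [← hc₆sq, hc₆]
      ring
    -- minimality forces `a = 2`, `b = 3`
    have hab : a = 2 ∧ b = 3 := by
      by_contra hne
      have h4 : 4 ≤ a ∧ 6 ≤ b := by omega
      apply hmin
      constructor
      · rw [hc₄]; exact Dvd.dvd.mul_right (pow_dvd_pow (q : ℤ) h4.1) _
      · rw [hc₆]; exact Dvd.dvd.mul_right (pow_dvd_pow (q : ℤ) h4.2) _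
    obtain ⟨rfl, rfl⟩ := hab
    refine ⟨c₄', c₆', hc₄, hc₆, hc₄', ?_⟩
    rw [hΔ]
    exact Dvd.dvd.mul_right (pow_dvd_pow (q : ℤ) (by omega)) _

end Fermat.Agent.SW.K3.Split
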