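import Mathlib
import Fermat.Agent.SW.K3.Split
import Fermat.Agent.SW.K3.PotGoodQ
import Fermat.Agent.SW.K3.PotMultQ

/-!
# MOONSHOT S52, block K3 (3b): the not-additive criterion

`W : WeierstrassCurve ℤ`, `Δ ≠ 0`, `q > 5` a prime at which the pair `(c₄, c₆)` is minimal, `B` a
valuation subring of `ℚ̄` over `q`.  If the inertia group at `B` acts trivially on the `5`-torsion
of `W` over `ℚ̄`, then `W` does not have additive reduction at `q`: `¬ (q ∣ Δ ∧ q ∣ c₄)`.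
-/

set_option autoImplicit false

namespace Fermat.Agent.SW.K3.NotAdditive

open WeierstrassCurve WeierstrassCurve.Affine
open scoped WeierstrassCurve.Affine

local notation "Qbar" => AlgebraicClosure ℚ

/-- **K3 (3b): the not-additive criterion.** -/
theorem not_additive_of_inertia_trivial [DecidableEq Qbar] (W : WeierstrassCurve ℤ)
    (hΔ : W.Δ ≠ 0) {q : ℕ} (hq : q.Prime) (hq5 : 5 < q)
    (hmin : ¬ (((q : ℤ) ^ 4 ∣ W.c₄) ∧ ((q : ℤ) ^ 6 ∣ W.c₆)))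
    (B : ValuationSubring Qbar) (hB : B.LiesOverPrime q)
    (hfix : ∀ σ ∈ B.inertiaSubgroupIn ℚ,
      ∀ T : ((W.map (Int.castRingHom ℚ)).toAffine⁄Qbar).Point, 5 • T = 0 → σ • T = T) :
    ¬ ((q : ℤ) ∣ W.Δ ∧ (q : ℤ) ∣ W.c₄) := by
  rintro ⟨hqΔ, hqc⟩
  rcases Fermat.Agent.SW.K3.Split.split W.c₄ W.c₆ W.Δ W.c_relation hΔ hq (by omega) hqΔ hqc hmin
    with ⟨n, Δ', hn0, hn12, hΔeq, hΔ', h4, h6⟩ | ⟨c₄', c₆', h4, h6, hc₄', h7⟩
  · exact Fermat.Agent.SW.K3.PotGoodQ.false_of_potGood_Q W hq hq5 B hB hn0 hn12 hΔeq hΔ' h4 h6 hfix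
  · exact Fermat.Agent.SW.K3.PotMultQ.false_of_potMult_Q W hΔ hq hq5 B hB h4 h6 hc₄' h7 hfix

/-- the same with the hypothesis in the form of the Prelude's `GaloisRepUnramifiedAt` -/
theorem not_additive_of_unramified [DecidableEq Qbar] (W : WeierstrassCurve ℤ)
    (hΔ : W.Δ ≠ 0) {q : ℕ} (hq : q.Prime) (hq5 : 5 < q)
    (hmin : ¬ (((q : ℤ) ^ 4 ∣ W.c₄) ∧ ((q : ℤ) ^ 6 ∣ W.c₆)))
    (B : ValuationSubring Qbar) (hB : B.LiesOverPrime q)
    (hur : WeierstrassCurve.Affine.Point.GaloisRepUnramifiedAt (K := Qbar) ℚ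
      (W.map (Int.castRingHom ℚ)).toAffine 5 q) :
    ¬ ((q : ℤ) ∣ W.Δ ∧ (q : ℤ) ∣ W.c₄) := by
  refine not_additive_of_inertia_trivial W hΔ hq hq5 hmin B hB ?_
  intro σ hσ T hT
  have hmem : T ∈ Submodule.torsionBy ℤ ((W.map (Int.castRingHom ℚ)).toAffine⁄Qbar).Point 5 := by
    rw [Submodule.mem_torsionBy_iff]
    have : ((5 : ℕ) : ℤ) • T = 0 := by rw [natCast_zsmul]; exact hT
    exact_mod_cast this
  have := hur B hB σ hσ ⟨T, hmem⟩
  exact congrArg Subtype.val this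

end Fermat.Agent.SW.K3.NotAdditive
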