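import Fermat.Agent.SW.Contracts
import Fermat.Agent.S05.Frey
import Fermat.Agent.S54.Frobenius
import Fermat.Agent.SW.K3.ModelIso
import Fermat.Agent.SW.K3.NotAdditive

/-!
# MOONSHOT S52, block K3: the literal contract `ModelOut` (from `CongVC`)

`modelOut : CongVC → ModelOut` with modulus `M = 27 * 54 * (48 * 864 * 30^6 * |Δ(W)|)`.

(Imports `Fermat.Agent.SW.Contracts` of origin/helper13 @ a47d21be.)
-/

set_option autoImplicit false

namespace Fermat.Agent.SW.K3.ModelOut

open WeierstrassCurve WeierstrassCurve.Affine Fermat.Agent.SW.Contracts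
open scoped WeierstrassCurve.Affine

/-- conversion of the two notions of closeness -/
theorem close_conv {N : ℕ} {k l : ℕ} {A₁ c : ℚ} (hk : (k : ℚ) ≠ 0)
    (h : Close (k * l * N) A₁ (-(k : ℚ) * c)) :
    Fermat.Agent.SW.K3.Model.Close N (-A₁ / k) c := by
  obtain ⟨r, hr, hcop⟩ := h
  refine ⟨-(l : ℤ) * r.num, r.den, r.den_pos, ?_, ?_⟩
  · exact Nat.Coprime.coprime_mul_left_right hcop
  · have h1 : r * (r.den : ℚ) = (r.num : ℚ) := Rat.mul_den_eq_num r
    have h2 : -A₁ / (k : ℚ) - c = -((l : ℚ) * (N : ℚ) * r) := by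
      field_simp
      push_cast at hr
      linear_combination -hr
    rw [h2]
    push_cast
    linear_combination (-(l : ℚ) * (N : ℚ)) * h1

theorem modulus_pos {W : WeierstrassCurve ℤ} (hΔ : W.Δ ≠ 0) :
    0 < Fermat.Agent.SW.K3.Model.modulus W := by
  unfold Fermat.Agent.SW.K3.Model.modulus
  have : 0 < W.Δ.natAbs := Int.natAbs_pos.mpr hΔ
  positivity

/-- **K3: the literal `ModelOut`.** -/
theorem modelOut (hV : CongVC) : ModelOut := by
  intro W hΔ hss
  refine ⟨27 * 54 * Fermat.Agent.SW.K3.Model.modulus W,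
    Nat.mul_pos (by norm_num) (modulus_pos hΔ), ?_⟩
  intro A₁ B₁ hdisc hcA hcB hcong
  have h4 : Fermat.Agent.SW.K3.Model.Close (Fermat.Agent.SW.K3.Model.modulus W) (-A₁ / 27)
      (W.c₄ : ℚ) := by
    have e' : (-((27 : ℕ) : ℚ)) = -27 := by norm_num
    have := close_conv (N := Fermat.Agent.SW.K3.Model.modulus W) (k := 27) (l := 54)
      (A₁ := A₁) (c := (W.c₄ : ℚ)) (by norm_num) (by rw [e']; exact hcA)
    simpa using this
  have h6 : Fermat.Agent.SW.K3.Model.Close (Fermat.Agent.SW.K3.Model.modulus W) (-B₁ / 54)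
      (W.c₆ : ℚ) := by
    have e : 54 * 27 * Fermat.Agent.SW.K3.Model.modulus W =
        27 * 54 * Fermat.Agent.SW.K3.Model.modulus W := by ring
    have e' : (-((54 : ℕ) : ℚ)) = -54 := by norm_num
    have := close_conv (N := Fermat.Agent.SW.K3.Model.modulus W) (k := 54) (l := 27)
      (A₁ := B₁) (c := (W.c₆ : ℚ)) (by norm_num) (by rw [e, e']; exact hcB)
    simpa using this
  obtain ⟨W'', hΔ'', hssM, hmin, C, hC⟩ :=
    Fermat.Agent.SW.K3.ModelIso.exists_model_iso W hss A₁ B₁ hdisc h4 h6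
  have hC' : C • shortW A₁ B₁ = ratW W'' := hC
  refine ⟨W'', hΔ'', ?_, C, hC'⟩
  -- semistability
  intro q hq hqΔ hqc
  by_cases hqM : q ∣ Fermat.Agent.SW.K3.Model.modulus W
  · exact hssM q hq hqM hqΔ hqc
  -- `q` is a good prime of `W`, `q > 5`
  have hq30 : ¬ q ∣ 30 := fun h =>
    hqM ((h.trans (dvd_pow_self 30 (by norm_num))).trans
      (Fermat.Agent.SW.K3.Model.thirty_pow_dvd_modulus W))
  have hqΔW : ¬ (q : ℤ) ∣ W.Δ := by
    intro h
    apply hqM
    have h1 : q ∣ W.Δ.natAbs := Int.natCast_dvd.mp h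
    unfold Fermat.Agent.SW.K3.Model.modulus
    exact Dvd.dvd.mul_left (Dvd.dvd.mul_left h1 _) _
  have hq5 : 5 < q := by
    by_contra hle
    push Not at hle
    have h2 := hq.two_le
    interval_cases q
    · exact hq30 (by norm_num)
    · exact hq30 (by norm_num)
    · exact absurd hq (by norm_num)
    · exact hq30 (by norm_num)
  obtain ⟨B, hB⟩ := Fermat.Agent.S54.exists_valuationSubring_liesOver q hq
  -- the Galois module
  have hΔs : (shortW A₁ B₁).Δ ≠ 0 := by
    have : (shortW A₁ B₁).Δ = -16 * (4 * A₁ ^ 3 + 27 * B₁ ^ 2) := by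
      simp only [shortW, WeierstrassCurve.Δ, b₂, b₄, b₆, b₈]; ring
    rw [this]
    exact mul_ne_zero (by norm_num) hdisc
  obtain ⟨φ, hφ⟩ := cong_trans (hV _ _ C hΔs hC' 5) hcong
  refine Fermat.Agent.SW.K3.NotAdditive.not_additive_of_inertia_trivial W'' hΔ'' hq hq5
    (hmin q hq) B hB ?_ ⟨hqΔ, hqc⟩
  intro σ hσ T hT
  have hmem : T ∈ Submodule.torsionBy ℤ ((ratW W'').toAffine⁄Qb).Point ((5 : ℕ) : ℤ) := by
    rw [Submodule.mem_torsionBy_iff, natCast_zsmul]
    exact hT
  set P : Submodule.torsionBy ℤ ((ratW W'').toAffine⁄Qb).Point ((5 : ℕ) : ℤ) := ⟨T, hmem⟩ with hP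
  -- inertia fixes `φ P` by good reduction of `W` at `q`
  have hgood : σ • φ P = φ P := by
    apply Subtype.ext
    have hT' : (5 : ℕ) • ((φ P : Submodule.torsionBy ℤ ((ratW W).toAffine⁄Qb).Point ((5 : ℕ) : ℤ)) :
        ((ratW W).toAffine⁄Qb).Point) = 0 := by
      have := (φ P).2
      rw [Submodule.mem_torsionBy_iff, natCast_zsmul] at this
      exact this
    exact Fermat.Agent.S05.galois_fix_torsion_of_good (ratW W).toAffine B hσ
      (Fermat.Agent.EC.Mult.Main.integralCoeffs W B)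
      (by rw [Fermat.Agent.EC.Mult.Main.Δ_eq]; exact Fermat.Agent.S05.val_intCast_eq_one B hq hB hqΔW)
      (Fermat.Agent.EC.Mult.Main.val_natCast_eq_one hq hB
        (Fermat.Agent.SW.K3.PotGoodQ.not_dvd_of_dvd_pow_thirty (k := 1) hq hq5 (by norm_num)))
      hT'
  have hfixP : σ • P = P := by
    apply φ.injective
    rw [hφ, hgood]
  exact congrArg Subtype.val hfixP

end Fermat.Agent.SW.K3.ModelOut
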